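import Fermat.Agent.SelbergZeroCount.Main

/-!
# Weighted sums over the zeros in a box, and heights away from the zeros
-/

set_option autoImplicit false

noncomputable section

open Complex Filter Topology Set MeasureTheory Metric
open scoped Real
open FA.DegreeGap (HasFunctionalEquation pt degree)
open FA.SelbergStructure (rateD)
open FA.SelbergClass (HasEulerProduct)
open FA.ExplicitFormula (boxInt boxInt_congr boxInt_add boxInt_eq_zero boxEdges interior_not_edge)
open FA.RiemannMangoldt (rootProd rootProd_ne_zero hasDerivAt_rootProd)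
open FA.LevinsonThird (boxInt_sum_poles)
open FA.SelbergZeroCount

namespace FA.SelbergLandau

variable {f : ℂ → ℂ}

/-- The weighted sum over the zeros in the box. -/
def boxSum (f Φ : ℂ → ℂ) (a b T : ℝ) : ℂ :=
  ∑ᶠ ρ ∈ boxZeros f a b T, (analyticOrderNatAt f ρ : ℂ) * Φ ρ

theorem boxSum_eq_sum (hf : Differentiable ℂ f) (hord : ∀ z, analyticOrderAt f z ≠ ⊤) (Φ : ℂ → ℂ)
    (a b T : ℝ) : boxSum f Φ a b T =
      ∑ ρ ∈ (finite_boxZeros hf hord a b T).toFinset, (analyticOrderNatAt f ρ : ℂ) * Φ ρ :=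
  finsum_mem_eq_finite_toFinset_sum _ _

/-- **The argument principle with a weight.** -/
theorem boxInt_weighted (hf : Differentiable ℂ f) (hord : ∀ z, analyticOrderAt f z ≠ ⊤)
    {Φ : ℂ → ℂ} (hΦ : Differentiable ℂ Φ) {a b T : ℝ} (hab : a ≤ b) (hT : 0 ≤ T)
    (hedge : ∀ ρ, f ρ = 0 → a ≤ ρ.re → ρ.re ≤ b → |ρ.im| ≤ T →
      a < ρ.re ∧ ρ.re < b ∧ |ρ.im| < T) :
    boxInt (fun s => Φ s * (deriv f s / f s)) a b T = 2 * π * I * boxSum f Φ a b T := by
  classical
  obtain ⟨K, hK⟩ : ∃ K : Set ℂ, K = Icc a b ×ℂ Icc (-T) T := ⟨_, rfl⟩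
  obtain ⟨Z, h, hh, he, hZK, hne, hcount⟩ := FA.Levinson.exists_compact_factor isOpen_univ
    (hK ▸ isCompact_Icc.reProdIm isCompact_Icc : IsCompact K) (subset_univ _)
    hf.differentiableOn fun z _ => hord z
  have hh' : Differentiable ℂ h := fun z => hh.differentiableAt univ_mem
  have hmemK : ∀ s : ℂ, s.re ∈ Icc a b → s.im ∈ Icc (-T) T → s ∈ K := fun s h1 h2 => by
    rw [hK, mem_reProdIm]
    exact ⟨h1, h2⟩
  have hZ0 : ∀ ρ ∈ Z, f ρ = 0 := fun ρ hρ => by
    rw [he]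
    refine mul_eq_zero_of_left ?_ _
    simp only [rootProd, Multiset.prod_eq_zero_iff, Multiset.mem_map]
    exact ⟨ρ, hρ, sub_self ρ⟩
  have hZin : ∀ ρ ∈ Z, a < ρ.re ∧ ρ.re < b ∧ |ρ.im| < T := fun ρ hρ => by
    have h2 := hZK ρ hρ
    rw [hK, mem_reProdIm] at h2
    exact hedge ρ (hZ0 ρ hρ) h2.1.1 h2.1.2 (abs_le.2 h2.2)
  obtain ⟨hc1, hi1⟩ := boxInt_sum_poles hΦ hT Z hZin
  have hedge' : ∀ s ∈ boxEdges a b T, s ∈ K ∧ ∀ ρ ∈ Z, s ≠ ρ := fun s hs => by
    refine ⟨?_, fun ρ hρ => ?_⟩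
    · obtain ⟨h1, h2, -⟩ := hs
      rw [uIcc_of_le hab] at h1
      rw [uIcc_of_le (by linarith)] at h2
      exact hmemK s h1 h2
    · obtain ⟨a1, a2, a3⟩ := hZin ρ hρ
      exact interior_not_edge a1 a2 a3.ne hT hs
  have hH : ∀ s ∈ K, DifferentiableAt ℂ (fun z => Φ z * (deriv h z / h z)) s := fun s hs =>
    (hΦ s).mul (((hh'.analyticAt s).deriv.differentiableAt).div (hh' s) (hne s hs))
  have heq : boxInt (fun s => Φ s * (deriv f s / f s)) a b T = boxInt (fun s =>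
      (Z.map fun w => Φ s / (s - w)).sum + Φ s * (deriv h s / h s)) a b T := by
    refine boxInt_congr fun s hs => ?_
    obtain ⟨hsK, hsne⟩ := hedge' s hs
    have hd' : deriv f s =
        rootProd Z s * (Z.map fun ρ => (s - ρ)⁻¹).sum * h s + rootProd Z s * deriv h s := by
      rw [show f = fun w => rootProd Z w * h w from funext he]
      exact ((hasDerivAt_rootProd hsne).mul (hh' s).hasDerivAt).deriv
    have n1 := rootProd_ne_zero hsne
    have n2 := hne s hsK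
    simp only [div_eq_mul_inv (Φ s), Multiset.sum_map_mul_left]
    rw [hd', he s]
    field_simp
  rw [heq, boxInt_add hc1 fun s hs => (hH s (hedge' s hs).1).continuousAt, hi1,
    boxInt_eq_zero hab hT fun s h1 h2 => hH s (hmemK s h1 h2), add_zero]
  congr 1
  have hsub : Z.toFinset ⊆ (finite_boxZeros hf hord a b T).toFinset := fun ρ hρ => by
    rw [Multiset.mem_toFinset] at hρ
    obtain ⟨a1, a2, a3⟩ := hZin ρ hρ
    exact (Set.Finite.mem_toFinset _).2 ⟨hZ0 ρ hρ, a1.le, a2.le, a3.le⟩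
  rw [boxSum_eq_sum hf hord, Finset.sum_multiset_map_count, Finset.sum_subset hsub fun ρ _ hρ => by
    rw [Multiset.mem_toFinset] at hρ
    rw [Multiset.count_eq_zero.2 hρ, zero_smul]]
  refine Finset.sum_congr rfl fun ρ hρ => ?_
  obtain ⟨-, h1, h2, h3⟩ := (Set.Finite.mem_toFinset _).1 hρ
  rw [hcount ρ (hmemK ρ ⟨h1, h2⟩ (abs_le.1 h3)), nsmul_eq_mul]

variable {a : ℕ → ℂ} {m : ℕ} {E : ℂ → ℂ} {r : ℕ} {lam : Fin r → ℝ} {mu : Fin r → ℂ} {Q : ℝ}
  {omega : ℂ}

theorem order_fe (h : HasFunctionalEquation a m E lam mu Q omega) (he : HasEulerProduct a)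
    (z : ℂ) : analyticOrderAt E z ≠ ⊤ :=
  order_ne_top h.differentiable (exists_ne_zero h he) z

/-- **Few zeros in a window of height `2`.** -/
theorem exists_window (h : HasFunctionalEquation a m E lam mu Q omega) (he : HasEulerProduct a)
    {α β : ℝ} (hα : α ≤ 0) (hβ : 1 ≤ β) : ∃ W : ℝ, 0 ≤ W ∧ ∀ T : ℝ, 3 ≤ T →
      (boxCount E α β (T + 1) : ℝ) - boxCount E α β (T - 1) ≤ W * Real.log T := by
  obtain ⟨D, hD⟩ := exists_box_compare h he hα hβ (order_fe h he)
  obtain ⟨C, hC⟩ := exists_stripCount h he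
  obtain ⟨P, hP⟩ : ∃ P, P = |degree lam| + |rateD lam Q| := ⟨_, rfl⟩
  have hP0 : 0 ≤ P := hP ▸ by positivity
  refine ⟨2 * (P * 4) + 4 * |C| + 2 * D, by positivity, fun T hT => ?_⟩
  obtain ⟨-, hone⟩ := log_succ_le (show (2 : ℝ) ≤ T by linarith)
  have hl : Real.log (T + 1) ≤ 2 * Real.log T := by
    rw [show (2 : ℝ) * Real.log T = Real.log (T ^ 2) by rw [Real.log_pow]; norm_num]
    exact Real.log_le_log (by linarith) (by nlinarith)
  have hl' : Real.log (T - 1) ≤ 2 * Real.log T :=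
    (Real.log_le_log (by linarith) (by linarith)).trans hl
  have h1 := abs_le.1 (hC (T + 1) (by linarith))
  have h2 := abs_le.1 (hC (T - 1) (by linarith))
  have h3 := abs_le.1 (mainTerm_near (lam := lam) (Q := Q) (show 1 ≤ T by linarith)
    (show T ≤ T + 1 by linarith) le_rfl (le_refl (T + 1)))
  have h4 := abs_le.1 (mainTerm_near (lam := lam) (Q := Q) (show 1 ≤ T - 1 by linarith)
    (show T - 1 ≤ T by linarith) (show T ≤ T - 1 + 1 by linarith) (show T ≤ T + 1 by linarith))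
  rw [← hP] at h3 h4
  have h5 : P * (Real.log (T + 1) + 1) ≤ P * (4 * Real.log T) :=
    mul_le_mul_of_nonneg_left (by linarith) hP0
  have e : ∀ U : ℝ, 0 ≤ Real.log U → Real.log U ≤ 2 * Real.log T →
      C * Real.log U ≤ |C| * (2 * Real.log T) := fun U h0 h1 =>
    mul_le_mul (le_abs_self C) h1 h0 (abs_nonneg C)
  have h6 := e (T + 1) (Real.log_nonneg (by linarith)) hl
  have h7 := e (T - 1) (Real.log_nonneg (by linarith)) hl'
  have h8 : (boxCount E α β (T + 1) : ℝ) ≤ stripCount E (T + 1) + D := by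
    exact_mod_cast (hD (T + 1)).2
  have h9 : (stripCount E (T - 1) : ℝ) ≤ boxCount E α β (T - 1) :=
    Nat.cast_le.2 (hD (T - 1)).1
  have h10 : (D : ℝ) ≤ D * (2 * Real.log T) := le_mul_of_one_le_right (Nat.cast_nonneg D) hone
  linarith [h1.2, h2.1, h3.2, h4.2]

/-- **A height away from the ordinates.** -/
theorem exists_spaced (h : HasFunctionalEquation a m E lam mu Q omega) (he : HasEulerProduct a)
    {α β : ℝ} (hα : α ≤ 0) (hβ : 1 ≤ β) : ∃ H : ℝ, 0 ≤ H ∧ ∀ T : ℝ, 3 ≤ T →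
      ∃ t δ : ℝ, T ≤ t ∧ t ≤ T + 1 ∧ 0 < δ ∧ δ ≤ 1 ∧ δ⁻¹ ≤ H * Real.log T ∧
        ∀ ρ, E ρ = 0 → α ≤ ρ.re → ρ.re ≤ β → δ ≤ |(|ρ.im| - t)| := by
  classical
  obtain ⟨W, hW, hwin⟩ := exists_window h he hα hβ
  refine ⟨2 * W + 4, by positivity, fun T hT => ?_⟩
  have hf := h.differentiable
  have hord := order_fe h he
  obtain ⟨A, hA⟩ : ∃ A, A = (finite_boxZeros hf hord α β (T + 1)).toFinset \
      (finite_boxZeros hf hord α β (T - 1)).toFinset := ⟨_, rfl⟩
  obtain ⟨M, hM⟩ : ∃ M : ℕ, M = A.card + 1 := ⟨_, rfl⟩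
  obtain ⟨δ, hδ⟩ : ∃ δ : ℝ, δ = 1 / (2 * M) := ⟨_, rfl⟩
  have hM1 : (1 : ℝ) ≤ M := by exact_mod_cast (show 1 ≤ M by omega)
  have hδ0 : 0 < δ := by rw [hδ]; positivity
  have hδ2 : δ ≤ 1 / 2 := by
    rw [hδ]
    exact one_div_le_one_div_of_le two_pos (by linarith)
  have hMδ : (M : ℝ) * δ = 1 / 2 := by rw [hδ]; field_simp
  have hcard : (A.card : ℝ) ≤ W * Real.log T := by
    refine le_trans ?_ (hwin T hT)
    have hsub : (finite_boxZeros hf hord α β (T - 1)).toFinset ⊆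
        (finite_boxZeros hf hord α β (T + 1)).toFinset :=
      Set.Finite.toFinset_subset_toFinset.2 fun ρ ⟨h0, h1, h2, h3⟩ =>
        ⟨h0, h1, h2, h3.trans (by linarith)⟩
    have hle : A.card ≤ ∑ ρ ∈ A, analyticOrderNatAt E ρ := by
      rw [Finset.card_eq_sum_ones]
      refine Finset.sum_le_sum fun ρ hρ => ?_
      rw [hA, Finset.mem_sdiff, Set.Finite.mem_toFinset] at hρ
      refine Nat.one_le_iff_ne_zero.2 fun e => ?_
      rcases (ENat.toNat_eq_zero).1 e with e | e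
      · exact (hf.analyticAt ρ).analyticOrderAt_eq_zero.1 e hρ.1.1
      · exact hord ρ e
    rw [boxCount_eq_sum hf hord, boxCount_eq_sum hf hord, ← Finset.sum_sdiff hsub, ← hA,
      Nat.cast_add, add_sub_cancel_right]
    exact_mod_cast hle
  have hgood : ∃ k < M, ∀ ρ ∈ A, δ ≤ |(|ρ.im| - (T + (2 * k + 1) * δ))| := by
    by_contra hno
    push Not at hno
    choose g hg1 hg2 using hno
    have hinj : ∀ i j (hi : i < M) (hj : j < M), g i hi = g j hj → i ≤ j := fun i j hi hj e => by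
      by_contra hij
      have h1 := abs_lt.1 (hg2 i hi)
      have h2 := abs_lt.1 (hg2 j hj)
      rw [e] at h1
      have hji : (j : ℝ) + 1 ≤ i := by exact_mod_cast (show j + 1 ≤ i by omega)
      have := mul_le_mul_of_nonneg_right hji hδ0.le
      linarith [h1.1, h1.2, h2.1, h2.2]
    have := Finset.card_le_card_of_injOn (s := Finset.range M) (t := A)
      (fun i => if hi : i < M then g i hi else 0)
      (fun i hi => by
        rw [Finset.coe_range, Set.mem_Iio] at hi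
        simpa [hi] using hg1 i hi)
      fun i hi j hj e => by
        rw [Finset.coe_range, Set.mem_Iio] at hi hj
        simp only [hi, hj, dite_true] at e
        exact le_antisymm (hinj i j hi hj e) (hinj j i hj hi e.symm)
    rw [Finset.card_range] at this
    omega
  obtain ⟨k, hk, hk'⟩ := hgood
  have hk1 : (2 * (k : ℝ) + 2) * δ ≤ 1 := by
    have : (k : ℝ) + 1 ≤ M := by exact_mod_cast hk
    nlinarith
  refine ⟨T + (2 * k + 1) * δ, δ, le_add_of_nonneg_right (by positivity), by linarith, hδ0,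
    by linarith, ?_, fun ρ h0 h1 h2 => ?_⟩
  · rw [hδ, one_div, inv_inv, hM, Nat.cast_add, Nat.cast_one]
    obtain ⟨-, hone⟩ := log_succ_le (show (2 : ℝ) ≤ T by linarith)
    linarith
  · by_cases hmem : ρ ∈ A
    · exact hk' ρ hmem
    rw [hA, Finset.mem_sdiff, Set.Finite.mem_toFinset, Set.Finite.mem_toFinset] at hmem
    rcases le_or_gt |ρ.im| (T + 1) with h3 | h3
    · have h4 : |ρ.im| ≤ T - 1 := by
        by_contra h4
        exact hmem ⟨⟨h0, h1, h2, h3⟩, fun e => h4 e.2.2.2⟩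
      refine le_trans ?_ (neg_le_abs _)
      nlinarith
    · exact le_trans (by linarith) (le_abs_self _)

/-- **`E'/E` on a horizontal segment away from the zeros.** -/
theorem exists_logDeriv_edge (h : HasFunctionalEquation a m E lam mu Q omega) {α β : ℝ}
    (hα : α < 0) (hβ : 2 ≤ β) (hlow : ∀ t : ℝ, 1 / 2 ≤ (LSeries a (pt β t)).re) :
    ∃ K, 0 ≤ K ∧ ∀ t δ : ℝ, 0 < δ → δ ≤ 1 →
      (∀ ρ, E ρ = 0 → α - 2 ≤ ρ.re → ρ.re ≤ 2 * β - α + 2 → δ ≤ |(|ρ.im| - |t|)|) →
      ∀ u ∈ Icc α β, ‖deriv E ((u : ℂ) + t * I) / E ((u : ℂ) + t * I)‖ ≤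
        K * Real.log (|t| + 3) / δ := by
  obtain ⟨R, hR⟩ : ∃ R, R = β - α := ⟨_, rfl⟩
  have hR0 : 0 < R := by linarith
  obtain ⟨K, hK, hexp⟩ := FA.RiemannMangoldt.exists_logDeriv_expansion (r₁ := R + 1) (r := R + 2)
    (r₂ := R) hR0.le (by linarith) (by linarith)
  obtain ⟨k, C, hC, hstrip⟩ := exists_strip_bound h (A := β - (R + 2)) (B := β + (R + 2))
    (by linarith) (by linarith)
  obtain ⟨M, hM⟩ : ∃ M, M = 2 * (C + 1) * (R + 3) ^ k := ⟨_, rfl⟩
  have hM1 : 1 ≤ M := by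
    have : (1 : ℝ) ≤ (R + 3) ^ k := one_le_pow₀ (by linarith)
    rw [hM]; nlinarith
  refine ⟨2 * (K * (Real.log M + k + 1)), by have := Real.log_nonneg hM1; positivity,
    fun t δ hδ hδ1 hgap u hu => ?_⟩
  have hl : 1 ≤ Real.log (|t| + 3) := by
    rw [Real.le_log_iff_exp_le (by positivity)]
    linarith [Real.exp_one_lt_d9, abs_nonneg t]
  obtain ⟨s₀, hs₀⟩ : ∃ s₀ : ℂ, s₀ = (β : ℂ) + t * I := ⟨_, rfl⟩
  obtain ⟨f, hf⟩ : ∃ f : ℂ → ℂ, f = fun z => E (s₀ + z) := ⟨_, rfl⟩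
  have hfd : Differentiable ℂ f := hf ▸ h.differentiable.comp (differentiable_id.const_add s₀)
  have hf0 : 1 / 2 ≤ ‖f 0‖ := by
    simp only [hf, add_zero, hs₀]
    rw [h.eq_series _ (by simp; linarith), norm_mul, norm_pow]
    calc (1 / 2 : ℝ) ≤ ‖LSeries a ((β : ℂ) + t * I)‖ := (hlow t).trans (Complex.re_le_norm _)
      _ ≤ _ := le_mul_of_one_le_left (norm_nonneg _) (one_le_pow₀ (le_trans (by simp; linarith)
          (Complex.re_le_norm _)))
  have hB1 : 1 ≤ M * (|t| + 3) ^ k :=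
    one_le_mul_of_one_le_of_one_le hM1 (one_le_pow₀ (by linarith [abs_nonneg t]))
  obtain ⟨Z, hZ, hcard, hord, hlog⟩ := hexp univ f (M * (|t| + 3) ^ k) isOpen_univ
    (subset_univ _) hfd.differentiableOn (norm_pos_iff.1 (lt_of_lt_of_le (by norm_num) hf0)) hB1
    fun z hz => by
      rw [mem_sphere_zero_iff_norm] at hz
      have hre := abs_le.1 ((Complex.abs_re_le_norm z).trans hz.le)
      have him : |(s₀ + z).im| ≤ |t| + (R + 2) := by
        rw [hs₀]
        simp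
        linarith [abs_add_le t z.im, Complex.abs_im_le_norm z]
      calc ‖f z‖ ≤ C * (1 + |(s₀ + z).im|) ^ k := by
            rw [hf]
            exact hstrip _ (by simp [hs₀]; linarith) (by simp [hs₀]; linarith)
        _ ≤ (C + 1) * ((R + 3) * (|t| + 3)) ^ k :=
            mul_le_mul (by linarith) (pow_le_pow_left₀ (by positivity)
              (by nlinarith [abs_nonneg t]) k) (by positivity) (by positivity)
        _ = M * (|t| + 3) ^ k * (1 / 2) := by rw [hM, mul_pow]; ring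
        _ ≤ _ := mul_le_mul_of_nonneg_left hf0 (by linarith)
  obtain ⟨F, hF⟩ : ∃ F, F = K * (Real.log M + k + 1) * Real.log (|t| + 3) := ⟨_, rfl⟩
  have hKF : K * (Real.log (M * (|t| + 3) ^ k) + 1) ≤ F := by
    rw [hF, mul_assoc, Real.log_mul (by linarith) (by positivity), Real.log_pow]
    refine mul_le_mul_of_nonneg_left ?_ hK
    nlinarith [Real.log_nonneg hM1]
  have hF0 : 0 ≤ F := le_trans (mul_nonneg hK (by linarith [Real.log_nonneg hB1])) hKF
  obtain ⟨z, hz⟩ : ∃ z : ℂ, z = ((u - β : ℝ) : ℂ) := ⟨_, rfl⟩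
  have hzs : s₀ + z = (u : ℂ) + t * I := by rw [hz, hs₀]; push_cast; ring
  have hne : E ((u : ℂ) + t * I) ≠ 0 := fun h0 => by
    have := hgap _ h0 (by simp; linarith [hu.1]) (by simp; linarith [hu.2])
    simp at this
    linarith
  have h1 := hlog z (mem_closedBall_zero_iff.2 (by
    rw [hz, Complex.norm_real, Real.norm_eq_abs, abs_le]
    constructor <;> linarith [hu.1, hu.2])) (by simpa [hf, hzs] using hne)
  simp only [hf, deriv_comp_const_add, hzs] at h1
  have hsum : ‖(Z.map fun ρ => (z - ρ)⁻¹).sum‖ ≤ Multiset.card Z * (1 / δ) := by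
    refine (norm_multiset_sum_le _).trans ?_
    rw [Multiset.map_map]
    refine (Multiset.sum_map_le_sum_map _ (fun _ => 1 / δ) fun x hx => ?_).trans (le_of_eq ?_)
    · have hx' : 0 < Z.count x := Multiset.count_pos.2 hx
      rw [← hord x (hZ x hx)] at hx'
      have h0 : E (s₀ + x) = 0 := by
        simpa [hf] using apply_eq_zero_of_analyticOrderNatAt_ne_zero hx'.ne'
      have hx1 := abs_le.1 ((abs_re_le_norm x).trans (mem_closedBall_zero_iff.1 (hZ x hx)))
      have := hgap _ h0 (by simp [hs₀]; linarith) (by simp [hs₀]; linarith)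
      simp only [Function.comp_apply, norm_inv, one_div]
      refine inv_anti₀ hδ (this.trans ((abs_abs_sub_abs_le _ _).trans
        (le_trans (le_of_eq ?_) (abs_im_le_norm _))))
      simp [hs₀, hz]
    · rw [Multiset.map_const', Multiset.sum_replicate, nsmul_eq_mul]
  have h2 : (Multiset.card Z : ℝ) * (1 / δ) ≤ F * (1 / δ) :=
    mul_le_mul_of_nonneg_right (hcard.trans hKF) (by positivity)
  have h3 : F ≤ F * (1 / δ) := le_mul_of_one_le_right hF0 (by rwa [one_le_div hδ])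
  have h4 := norm_le_norm_add_norm_sub' (deriv E ((u : ℂ) + t * I) / E ((u : ℂ) + t * I))
    ((Z.map fun ρ => (z - ρ)⁻¹).sum)
  rw [show 2 * (K * (Real.log M + k + 1)) * Real.log (|t| + 3) / δ = 2 * (F * (1 / δ)) by
    rw [hF]; ring]
  linarith [hKF]

end FA.SelbergLandau

end
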