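import Fermat.Agent.SelbergClass.Character
import Fermat.Agent.SelbergZeroCount.Main

/-!
# The coefficients of the logarithmic derivative

`lamF a` is the Dirichlet quotient of `a n log n` by `a n`.
-/

set_option autoImplicit false

noncomputable section

open Complex Filter Topology ArithmeticFunction
open scoped Real
open FA.DegreeGap (HasFunctionalEquation)
open FA.SelbergClass (HasEulerProduct coe_toArithmeticFunction)

namespace FA.SelbergLandau

variable {a b : ℕ → ℂ}

/-- `Λ_F`. -/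
def lamF (a : ℕ → ℂ) : ArithmeticFunction ℂ :=
  toArithmeticFunction (LSeries.logMul a) * Ring.inverse (toArithmeticFunction a)

theorem isUnit_coeff (h1 : a 1 = 1) : IsUnit (toArithmeticFunction a) :=
  isUnit_iff_isUnit_apply_one.2 (by rw [coe_toArithmeticFunction one_ne_zero, h1]; exact isUnit_one)

theorem lamF_mul (h1 : a 1 = 1) :
    lamF a * toArithmeticFunction a = toArithmeticFunction (LSeries.logMul a) := by
  rw [lamF, mul_assoc, Ring.inverse_mul_cancel _ (isUnit_coeff h1), mul_one]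

theorem lamF_eq (h1 : a 1 = 1) {g : ArithmeticFunction ℂ}
    (hg : g * toArithmeticFunction a = toArithmeticFunction (LSeries.logMul a)) : lamF a = g :=
  (isUnit_coeff h1).mul_left_injective ((lamF_mul h1).trans hg.symm)

theorem mul_coeff_apply (g : ArithmeticFunction ℂ) {n : ℕ} (hn : n ≠ 0) :
    (g * toArithmeticFunction a) n = ∑ d ∈ n.divisors, g d * a (n / d) := by
  rw [ArithmeticFunction.mul_apply,
    Nat.sum_divisorsAntidiagonal (fun d e => g d * toArithmeticFunction a e)]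
  refine Finset.sum_congr rfl fun d hd => ?_
  obtain ⟨hdn, -⟩ := Nat.mem_divisors.1 hd
  rw [coe_toArithmeticFunction
    (Nat.div_pos (Nat.le_of_dvd (Nat.pos_of_ne_zero hn) hdn) (Nat.pos_of_dvd_of_pos hdn
      (Nat.pos_of_ne_zero hn))).ne']

theorem lamF_sum (h1 : a 1 = 1) {n : ℕ} (hn : n ≠ 0) :
    ∑ d ∈ n.divisors, lamF a d * a (n / d) = Complex.log n * a n := by
  rw [← mul_coeff_apply _ hn, lamF_mul h1, coe_toArithmeticFunction hn, LSeries.logMul]

theorem lamF_one (h1 : a 1 = 1) : lamF a 1 = 0 := by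
  have h := lamF_sum h1 one_ne_zero
  simpa [h1] using h

theorem lamF_prime (h1 : a 1 = 1) {p : ℕ} (hp : p.Prime) :
    lamF a p = a p * Complex.log p := by
  have h := lamF_sum h1 hp.ne_zero
  rw [hp.divisors, Finset.sum_insert (by simpa using hp.ne_one.symm), Finset.sum_singleton,
    lamF_one h1, zero_mul, zero_add, Nat.div_self hp.pos, h1, mul_one] at h
  rw [h, mul_comm]

theorem sum_prime_pow_coprime (hmul : ∀ m n : ℕ, Nat.Coprime m n → a (m * n) = a m * a n)
    (g : ℕ → ℂ) (hg : ∀ d, ¬IsPrimePow d → g d = 0) {m n : ℕ} (hm : m ≠ 0) (hn : n ≠ 0)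
    (hmn : Nat.Coprime m n) :
    ∑ d ∈ (m * n).divisors, g d * a (m * n / d) =
      (∑ d ∈ m.divisors, g d * a (m / d)) * a n + a m * ∑ d ∈ n.divisors, g d * a (n / d) := by
  classical
  have hsplit : ∀ k : ℕ, ∀ F : ℕ → ℂ, ∑ d ∈ k.divisors, g d * F d =
      ∑ d ∈ k.divisors.filter IsPrimePow, g d * F d := fun k F =>
    (Finset.sum_filter_of_ne fun d _ hd => by_contra fun hp => hd (by rw [hg d hp, zero_mul])).symm
  have hset : (m * n).divisors.filter IsPrimePow =
      m.divisors.filter IsPrimePow ∪ n.divisors.filter IsPrimePow := by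
    ext d
    simp only [Finset.mem_filter, Finset.mem_union, Nat.mem_divisors, ne_eq, mul_eq_zero, hm, hn,
      or_self, not_false_iff, and_true]
    constructor
    · rintro ⟨hd, hp⟩
      rcases (hmn.isPrimePow_dvd_mul hp).1 hd with h | h
      · exact Or.inl ⟨h, hp⟩
      · exact Or.inr ⟨h, hp⟩
    · rintro (⟨hd, hp⟩ | ⟨hd, hp⟩)
      · exact ⟨hd.mul_right _, hp⟩
      · exact ⟨hd.mul_left _, hp⟩
  rw [hsplit (m * n) fun d => a (m * n / d), hsplit m fun d => a (m / d),
    hsplit n fun d => a (n / d), hset, Finset.sum_union ?_, Finset.sum_mul, Finset.mul_sum]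
  · congr 1 <;> refine Finset.sum_congr rfl fun d hd => ?_ <;>
      obtain ⟨hdv, -⟩ := Nat.mem_divisors.1 (Finset.mem_filter.1 hd).1
    · rw [Nat.mul_comm m n, Nat.mul_div_assoc _ hdv, Nat.mul_comm n,
        hmul _ _ (hmn.coprime_dvd_left (Nat.div_dvd_of_dvd hdv)), mul_assoc]
    · rw [Nat.mul_div_assoc _ hdv, hmul _ _ (hmn.coprime_dvd_right (Nat.div_dvd_of_dvd hdv))]
      ring
  · rw [Finset.disjoint_left]
    intro d hd hd'
    simp only [Finset.mem_filter, Nat.mem_divisors] at hd hd'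
    exact hd.2.ne_one (Nat.eq_one_of_dvd_coprimes hmn hd.1.1 hd'.1.1)

/-- **`Λ_F` lives on prime powers.** -/
theorem lamF_eq_zero (he : HasEulerProduct a) {n : ℕ} (hn : ¬IsPrimePow n) : lamF a n = 0 := by
  classical
  obtain ⟨g, hg⟩ : ∃ g : ℕ → ℂ, g = fun k => if IsPrimePow k then lamF a k else 0 := ⟨_, rfl⟩
  have hg0 : ∀ d, ¬IsPrimePow d → g d = 0 := fun d hd => by rw [hg]; exact if_neg hd
  have key : ∀ k : ℕ, k ≠ 0 → ∑ d ∈ k.divisors, g d * a (k / d) = Complex.log k * a k := by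
    intro k
    induction k using Nat.recOnPosPrimePosCoprime with
    | zero => exact fun h => absurd rfl h
    | one => intro _; simp [hg0 1 not_isPrimePow_one]
    | prime_pow p v hp hv =>
      intro hk
      rw [← lamF_sum he.map_one hk]
      refine Finset.sum_congr rfl fun d hd => ?_
      obtain ⟨i, -, rfl⟩ := (Nat.dvd_prime_pow hp).1 (Nat.mem_divisors.1 hd).1
      rcases eq_or_ne i 0 with rfl | hi
      · simp [hg0 1 not_isPrimePow_one, lamF_one he.map_one]
      · simp only [hg, if_pos ((isPrimePow_pow_iff hi).2 hp.isPrimePow)]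
    | coprime u v hu hv huv iu iv =>
      intro _
      have hu0 : u ≠ 0 := by omega
      have hv0 : v ≠ 0 := by omega
      rw [sum_prime_pow_coprime he.map_mul g hg0 hu0 hv0 huv, iu hu0, iv hv0,
        he.map_mul u v huv, ← Complex.natCast_log, ← Complex.natCast_log, ← Complex.natCast_log,
        Nat.cast_mul, Real.log_mul (Nat.cast_ne_zero.2 hu0) (Nat.cast_ne_zero.2 hv0)]
      push_cast
      ring
  have e : lamF a = toArithmeticFunction g := lamF_eq he.map_one (ArithmeticFunction.ext fun k => by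
    rcases eq_or_ne k 0 with rfl | hk
    · simp
    rw [mul_coeff_apply _ hk, coe_toArithmeticFunction hk, LSeries.logMul, ← key k hk]
    exact Finset.sum_congr rfl fun d hd => by
      rw [coe_toArithmeticFunction (Nat.pos_of_mem_divisors hd).ne'])
  rw [e]
  rcases eq_or_ne n 0 with rfl | hn0
  · exact ArithmeticFunction.map_zero
  · rw [coe_toArithmeticFunction hn0, hg0 n hn]

/-- **`Λ_F` determines the coefficients.** -/
theorem coeff_eq_of_lamF_eq (ha : a 1 = 1) (hb : b 1 = 1)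
    (h : ∀ n, 2 ≤ n → lamF a n = lamF b n) : ∀ n, n ≠ 0 → a n = b n := by
  intro n
  induction n using Nat.strong_induction_on with
  | _ n ih =>
    intro hn
    rcases eq_or_ne n 1 with rfl | hn1
    · rw [ha, hb]
    have e : ∑ d ∈ n.divisors, lamF a d * a (n / d) = ∑ d ∈ n.divisors, lamF b d * b (n / d) := by
      refine Finset.sum_congr rfl fun d hd => ?_
      obtain ⟨hdn, -⟩ := Nat.mem_divisors.1 hd
      have hd0 := Nat.pos_of_mem_divisors hd
      rcases eq_or_ne d 1 with rfl | hd1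
      · simp [lamF_one ha, lamF_one hb]
      rw [h d (by omega), ih (n / d) (Nat.div_lt_self (Nat.pos_of_ne_zero hn) (by omega))
        (Nat.div_pos (Nat.le_of_dvd (Nat.pos_of_ne_zero hn) hdn) hd0).ne']
    rw [lamF_sum ha hn, lamF_sum hb hn] at e
    refine mul_left_cancel₀ ?_ e
    rw [← Complex.natCast_log, ofReal_ne_zero]
    exact (Real.log_pos (Nat.one_lt_cast.2 (by omega))).ne'

theorem exists_half_norm (h2 : LSeriesSummable a ((2 : ℝ) : ℂ)) :
    ∃ σ₀ : ℝ, 2 ≤ σ₀ ∧ ∀ σ : ℝ, σ₀ ≤ σ → ∀ s : Finset ℕ, (∀ n ∈ s, 2 ≤ n) →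
      ∑ n ∈ s, ‖LSeries.term a (σ : ℂ) n‖ ≤ 1 / 2 := by
  obtain ⟨S, hS⟩ : ∃ S, S = ∑' n, ‖LSeries.term a ((2 : ℝ) : ℂ) n‖ := ⟨_, rfl⟩
  have hS0 : 0 ≤ S := hS ▸ tsum_nonneg fun _ => norm_nonneg _
  obtain ⟨k, hk⟩ := pow_unbounded_of_one_lt (2 * S) one_lt_two
  refine ⟨2 + k, by linarith [Nat.cast_nonneg (α := ℝ) k], fun σ hσ s hs => ?_⟩
  calc ∑ n ∈ s, ‖LSeries.term a (σ : ℂ) n‖
      ≤ ∑ n ∈ s, ((2 : ℝ) ^ k)⁻¹ * ‖LSeries.term a ((2 : ℝ) : ℂ) n‖ := by
        refine Finset.sum_le_sum fun n hn => ?_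
        have hn2 : (2 : ℝ) ≤ n := by exact_mod_cast hs n hn
        have hn0 : n ≠ 0 := by have := hs n hn; omega
        rw [LSeries.norm_term_eq, LSeries.norm_term_eq, if_neg hn0, if_neg hn0, ofReal_re,
          ofReal_re, ← div_eq_inv_mul, div_div]
        refine div_le_div_of_nonneg_left (norm_nonneg _) (by positivity) ?_
        calc (n : ℝ) ^ (2 : ℝ) * 2 ^ k ≤ (n : ℝ) ^ (2 : ℝ) * (n : ℝ) ^ (k : ℝ) := by
              rw [Real.rpow_natCast]
              gcongr
          _ = (n : ℝ) ^ ((2 : ℝ) + k) := (Real.rpow_add (by linarith) _ _).symm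
          _ ≤ _ := Real.rpow_le_rpow_of_exponent_le (by linarith) hσ
    _ ≤ ((2 : ℝ) ^ k)⁻¹ * S := by
        rw [← Finset.mul_sum, hS]
        exact mul_le_mul_of_nonneg_left
          (h2.norm.sum_le_tsum s fun _ _ => norm_nonneg _) (by positivity)
    _ ≤ 1 / 2 := by
        rw [inv_mul_le_iff₀ (by positivity)]
        linarith

theorem summable_inverse (h1 : a 1 = 1) {σ : ℝ}
    (hσ : ∀ s : Finset ℕ, (∀ n ∈ s, 2 ≤ n) → ∑ n ∈ s, ‖LSeries.term a (σ : ℂ) n‖ ≤ 1 / 2) :
    LSeriesSummable ⇑(Ring.inverse (toArithmeticFunction a) : ArithmeticFunction ℂ) (σ : ℂ) := by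
  classical
  obtain ⟨b, hb⟩ : ∃ b : ArithmeticFunction ℂ, b = Ring.inverse (toArithmeticFunction a) :=
    ⟨_, rfl⟩
  rw [← hb]
  have hmul : b * toArithmeticFunction a = 1 := hb ▸ Ring.inverse_mul_cancel _ (isUnit_coeff h1)
  obtain ⟨B, hB⟩ : ∃ B : ℕ → ℝ, B = fun n => ‖LSeries.term b (σ : ℂ) n‖ := ⟨_, rfl⟩
  obtain ⟨A, hA⟩ : ∃ A : ℕ → ℝ, A = fun n => ‖LSeries.term a (σ : ℂ) n‖ := ⟨_, rfl⟩
  have hB1 : B 1 = 1 := by
    have h := congrArg (fun f : ArithmeticFunction ℂ => f 1) hmul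
    rw [mul_coeff_apply _ one_ne_zero] at h
    simp [h1] at h
    simp [hB, LSeries.term_of_ne_zero, h]
  have hrec : ∀ n, 2 ≤ n → B n ≤ ∑ d ∈ n.properDivisors, B d * A (n / d) := fun n hn => by
    have h := congrArg (fun f : ArithmeticFunction ℂ => f n) hmul
    rw [mul_coeff_apply _ (by omega), one_apply_ne (by omega : n ≠ 1),
      ← Nat.insert_self_properDivisors (by omega), Finset.sum_insert Nat.self_notMem_properDivisors,
      Nat.div_self (by omega), h1, mul_one, add_eq_zero_iff_eq_neg] at h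
    simp only [hB, hA]
    rw [LSeries.term_of_ne_zero (by omega), h, neg_div, norm_neg, Finset.sum_div]
    refine (norm_sum_le _ _).trans (Finset.sum_le_sum fun d hd => le_of_eq ?_)
    obtain ⟨hdn, hlt⟩ := Nat.mem_properDivisors.1 hd
    have hd0 : d ≠ 0 := (Nat.pos_of_dvd_of_pos hdn (by omega)).ne'
    have hq0 : n / d ≠ 0 := (Nat.div_pos hlt.le (by omega)).ne'
    rw [← norm_mul, LSeries.term_of_ne_zero hd0, LSeries.term_of_ne_zero hq0, div_mul_div_comm,
      ← natCast_mul_natCast_cpow, ← Nat.cast_mul, Nat.mul_div_cancel' hdn]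
  have hB0 : ∀ n, 0 ≤ B n := fun n => hB ▸ norm_nonneg _
  have hA0 : ∀ n, 0 ≤ A n := fun n => hA ▸ norm_nonneg _
  have hbound : ∀ N : ℕ, ∑ n ∈ Finset.range N, B n ≤ 2 := fun N => by
    rcases le_or_gt N 2 with hN | hN
    · refine (Finset.sum_le_sum_of_subset_of_nonneg (Finset.range_mono hN)
        fun n _ _ => hB0 n).trans ?_
      simp [Finset.sum_range_succ, hB1, show B 0 = 0 by simp [hB]]
    obtain ⟨S, hS⟩ : ∃ S, S = ∑ n ∈ Finset.range N, B n := ⟨_, rfl⟩
    have hS0 : 0 ≤ S := hS ▸ Finset.sum_nonneg fun n _ => hB0 n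
    have hsplit : S = 1 + ∑ n ∈ Finset.Ico 2 N, B n := by
      rw [hS, Finset.range_eq_Ico, ← Finset.sum_Ico_consecutive _ (Nat.zero_le 2) hN.le,
        ← Finset.range_eq_Ico, Finset.sum_range_succ, Finset.sum_range_one, hB1,
        show B 0 = 0 by simp [hB], zero_add]
    have hle : ∑ n ∈ Finset.Ico 2 N, B n ≤ S * (1 / 2) := by
      refine (Finset.sum_le_sum fun n hn => hrec n (Finset.mem_Ico.1 hn).1).trans ?_
      rw [Finset.sum_sigma' (Finset.Ico 2 N) (fun n => n.properDivisors)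
        fun n d => B d * A (n / d)]
      refine (le_of_eq (Finset.sum_image (f := fun x : ℕ × ℕ => B x.1 * A x.2)
        (g := fun x : (_ : ℕ) × ℕ => (x.2, x.1 / x.2)) ?_).symm).trans
        ((Finset.sum_le_sum_of_subset_of_nonneg
        (t := Finset.range N ×ˢ Finset.Ico 2 N) ?_ fun x _ _ =>
          mul_nonneg (hB0 _) (hA0 _)).trans ?_)
      · rintro ⟨n, d⟩ hx ⟨n', d'⟩ hx' e
        simp only [Finset.coe_sigma, Set.mem_sigma_iff, Finset.mem_coe, Nat.mem_properDivisors]
          at hx hx'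
        obtain ⟨e1, e2⟩ := Prod.ext_iff.1 e
        dsimp only at e1 e2
        subst e1
        rw [← Nat.mul_div_cancel' hx.2.1, e2, Nat.mul_div_cancel' hx'.2.1]
      · intro x hx
        obtain ⟨⟨n, d⟩, hm, rfl⟩ := Finset.mem_image.1 hx
        simp only [Finset.mem_sigma, Finset.mem_Ico, Nat.mem_properDivisors] at hm
        obtain ⟨⟨h2, hlt⟩, hdn, hdlt⟩ := hm
        simp only [Finset.mem_product, Finset.mem_range, Finset.mem_Ico]
        refine ⟨by omega, Nat.succ_le_of_lt ?_, lt_of_le_of_lt (Nat.div_le_self _ _) hlt⟩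
        exact Nat.lt_of_mul_lt_mul_left (a := d) (by rwa [mul_one, Nat.mul_div_cancel' hdn])
      · rw [Finset.sum_product, hS, Finset.sum_mul]
        refine Finset.sum_le_sum fun d _ => ?_
        dsimp only
        rw [← Finset.mul_sum]
        refine mul_le_mul_of_nonneg_left ?_ (hB0 d)
        rw [hA]
        exact hσ _ fun n hn => (Finset.mem_Ico.1 hn).1
    rw [← hS]
    linarith
  exact Summable.of_norm (summable_of_sum_range_le (fun n => norm_nonneg _)
    fun N => by simpa [hB] using hbound N)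

variable {m : ℕ} {E : ℂ → ℂ} {r : ℕ} {lam : Fin r → ℝ} {mu : Fin r → ℂ} {Q : ℝ} {omega : ℂ}

/-- **`-L'/L` is the series of `Λ_F` far to the right.** -/
theorem exists_lSeries_lamF (h : HasFunctionalEquation a m E lam mu Q omega)
    (he : HasEulerProduct a) : ∃ σ₀ : ℝ, 2 ≤ σ₀ ∧ ∀ s : ℂ, σ₀ ≤ s.re →
      LSeriesSummable (lamF a) s ∧ LSeries a s ≠ 0 ∧
        deriv (LSeries a) s / LSeries a s = -LSeries (lamF a) s := by
  obtain ⟨σ₀, hσ₀, hhalf⟩ := exists_half_norm (h.summable _ (by norm_num))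
  refine ⟨σ₀, hσ₀, fun s hs => ?_⟩
  have hab : LSeries.abscissaOfAbsConv a < s.re :=
    (LSeries.abscissaOfAbsConv_le_of_forall_lt_LSeriesSummable (x := 1)
      fun y hy => h.summable y (by simpa using hy)).trans_lt
        (EReal.coe_lt_coe_iff.2 (by linarith))
  have hinv : LSeriesSummable ⇑(Ring.inverse (toArithmeticFunction a) : ArithmeticFunction ℂ) s :=
    (summable_inverse he.map_one (hhalf σ₀ le_rfl)).of_re_le_re (by simpa using hs)
  have hlog : LSeriesSummable (toArithmeticFunction (LSeries.logMul a)) s :=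
    (LSeriesSummable_congr s fun {n} hn => coe_toArithmeticFunction hn).2
      (LSeriesSummable_logMul_of_lt_re hab)
  have hsum : LSeriesSummable (lamF a) s := ArithmeticFunction.LSeriesSummable_mul hlog hinv
  have hA : LSeriesSummable (toArithmeticFunction a) s :=
    (LSeriesSummable_congr s fun {n} hn => coe_toArithmeticFunction hn).2
      (h.summable s (by linarith))
  have hne := FA.SelbergZeroCount.lSeries_ne_zero he (show 1 < s.re by linarith)
    (h.summable s (by linarith))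
  refine ⟨hsum, hne, ?_⟩
  have e := ArithmeticFunction.LSeries_mul' hsum hA
  rw [lamF_mul he.map_one, LSeries_congr (fun {n} hn => coe_toArithmeticFunction hn) s,
    LSeries_congr (fun {n} hn => coe_toArithmeticFunction hn) s] at e
  rw [LSeries_deriv hab, e, neg_div, mul_div_cancel_right₀ _ hne]

theorem lamF_of_eq (h1 : a 1 = 1) (g : ℕ → ℂ)
    (hg : ∀ n, n ≠ 0 → ∑ d ∈ n.divisors, g d * a (n / d) = Complex.log n * a n) {n : ℕ}
    (hn : n ≠ 0) : lamF a n = g n := by
  rw [lamF_eq h1 (g := toArithmeticFunction g) (ArithmeticFunction.ext fun k => by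
    rcases eq_or_ne k 0 with rfl | hk
    · simp
    rw [mul_coeff_apply _ hk, coe_toArithmeticFunction hk, LSeries.logMul, ← hg k hk]
    exact Finset.sum_congr rfl fun d hd => by
      rw [coe_toArithmeticFunction (Nat.pos_of_mem_divisors hd).ne']),
    coe_toArithmeticFunction hn]

end FA.SelbergLandau

end
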