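import Fermat.Agent.SelbergLandau.Main

/-!
# The zeros determine the function

If `Λ_F n ≠ Λ_G n` then Landau's formula at `x = n` makes the zero multisets up to height `T`
differ by at least `c T`.
-/

set_option autoImplicit false

noncomputable section

open Complex Filter Topology Set
open scoped Real
open FA.DegreeGap (HasFunctionalEquation degree)
open FA.SelbergClass (HasEulerProduct)
open FA.DirichletLandau (coefAt coefAt_natCast)
open FA.SelbergZeroCount

namespace FA.SelbergLandau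

variable {a b : ℕ → ℂ} {m m' : ℕ} {E E' : ℂ → ℂ} {r r' : ℕ} {lam : Fin r → ℝ} {mu : Fin r → ℂ}
  {Q : ℝ} {omega : ℂ} {lam' : Fin r' → ℝ} {mu' : Fin r' → ℂ} {Q' : ℝ} {omega' : ℂ}

/-- `∑ |m_F ρ - m_G ρ|` over the zeros of either up to height `T`. -/
def zeroDiff (E E' : ℂ → ℂ) (T : ℝ) : ℝ :=
  ∑ᶠ ρ ∈ stripZeros E T ∪ stripZeros E' T,
    |(analyticOrderNatAt E ρ : ℝ) - analyticOrderNatAt E' ρ|

theorem zeroDiff_eq_sum (h : HasFunctionalEquation a m E lam mu Q omega) (he : HasEulerProduct a)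
    (h' : HasFunctionalEquation b m' E' lam' mu' Q' omega') (he' : HasEulerProduct b) (T : ℝ) :
    zeroDiff E E' T =
      ∑ ρ ∈ ((finite_stripZeros h he T).union (finite_stripZeros h' he' T)).toFinset,
      |(analyticOrderNatAt E ρ : ℝ) - analyticOrderNatAt E' ρ| :=
  finsum_mem_eq_finite_toFinset_sum _ _

theorem order_eq_zero (h : HasFunctionalEquation a m E lam mu Q omega) {ρ : ℂ} (h0 : E ρ ≠ 0) :
    analyticOrderNatAt E ρ = 0 := by
  rw [analyticOrderNatAt, (h.differentiable.analyticAt ρ).analyticOrderAt_eq_zero.2 h0,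
    ENat.toNat_zero]

theorem zeroSum_eq_union (h : HasFunctionalEquation a m E lam mu Q omega) (he : HasEulerProduct a)
    (x T : ℝ) {U : Finset ℂ} (hU : (finite_stripZeros h he T).toFinset ⊆ U)
    (hUT : ∀ ρ ∈ U, 0 ≤ ρ.re ∧ ρ.re ≤ 1 ∧ |ρ.im| ≤ T ∧ ρ ≠ 1) :
    zeroSum E x T = ∑ ρ ∈ U, (analyticOrderNatAt E ρ : ℂ) * (x : ℂ) ^ ρ := by
  rw [zeroSum_eq_sum h he]
  refine Finset.sum_subset hU fun ρ hρ hn => ?_
  obtain ⟨h1, h2, h3, h4⟩ := hUT ρ hρ
  rw [order_eq_zero h fun h0 => hn ((Set.Finite.mem_toFinset _).2 ⟨h0, h1, h2, h3, h4⟩),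
    Nat.cast_zero, zero_mul]

theorem norm_zeroSum_diff_le (h : HasFunctionalEquation a m E lam mu Q omega)
    (he : HasEulerProduct a) (h' : HasFunctionalEquation b m' E' lam' mu' Q' omega')
    (he' : HasEulerProduct b) {x : ℝ} (hx : 1 ≤ x) (T : ℝ) :
    ‖zeroSum E x T - zeroSum E' x T‖ ≤ x * zeroDiff E E' T := by
  classical
  obtain ⟨U, hU⟩ : ∃ U, U =
      ((finite_stripZeros h he T).union (finite_stripZeros h' he' T)).toFinset := ⟨_, rfl⟩
  have hUT : ∀ ρ ∈ U, 0 ≤ ρ.re ∧ ρ.re ≤ 1 ∧ |ρ.im| ≤ T ∧ ρ ≠ 1 := fun ρ hρ => by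
    rw [hU, Set.Finite.mem_toFinset] at hρ
    rcases hρ with hz | hz <;> exact hz.2
  rw [zeroDiff_eq_sum h he h' he', ← hU,
    zeroSum_eq_union h he x T (hU ▸ Set.Finite.toFinset_subset_toFinset.2 subset_union_left) hUT,
    zeroSum_eq_union h' he' x T (hU ▸ Set.Finite.toFinset_subset_toFinset.2 subset_union_right)
      hUT, ← Finset.sum_sub_distrib, Finset.mul_sum]
  refine (norm_sum_le _ _).trans (Finset.sum_le_sum fun ρ hρ => ?_)
  rw [← sub_mul, norm_mul, norm_cpow_eq_rpow_re_of_pos (by linarith), mul_comm,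
    show ((analyticOrderNatAt E ρ : ℂ) - analyticOrderNatAt E' ρ) =
      (((analyticOrderNatAt E ρ : ℝ) - analyticOrderNatAt E' ρ : ℝ) : ℂ) by push_cast; rfl,
    Complex.norm_real, Real.norm_eq_abs]
  refine mul_le_mul_of_nonneg_right ?_ (abs_nonneg _)
  exact (Real.rpow_le_rpow_of_exponent_le hx (hUT ρ hρ).2.1).trans_eq (Real.rpow_one x)

/-- **Different functions: the multisets differ by at least `c T`.** -/
theorem exists_diff_lower (h : HasFunctionalEquation a m E lam mu Q omega) (he : HasEulerProduct a)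
    (h' : HasFunctionalEquation b m' E' lam' mu' Q' omega') (he' : HasEulerProduct b)
    (hne : ∃ n, n ≠ 0 ∧ a n ≠ b n) : ∃ c T₀ : ℝ, 0 < c ∧ ∀ T : ℝ, T₀ ≤ T →
      c * T ≤ zeroDiff E E' T := by
  obtain ⟨n, hn2, hn⟩ : ∃ n, 2 ≤ n ∧ lamF a n ≠ lamF b n := by
    by_contra hall
    push Not at hall
    obtain ⟨k, hk, hk'⟩ := hne
    exact hk' (coeff_eq_of_lamF_eq he.map_one he'.map_one hall k hk)
  have hn1 : (1 : ℝ) < n := Nat.one_lt_cast.2 (by omega)
  obtain ⟨A, hl1⟩ := exists_landau h he hn1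
  obtain ⟨B, hl2⟩ := exists_landau h' he' hn1
  simp only [coefAt_natCast] at hl1 hl2
  obtain ⟨d, hd⟩ : ∃ d : ℝ, d = ‖lamF a n - lamF b n‖ / π := ⟨_, rfl⟩
  have hd0 : 0 < d := hd ▸ div_pos (norm_pos_iff.2 (sub_ne_zero.2 hn)) Real.pi_pos
  have hlim : Tendsto (fun T : ℝ => (A + B) * Real.log T ^ 2 / T) atTop (𝓝 0) := by
    have h := (Real.tendsto_pow_log_div_mul_add_atTop 1 0 2 one_ne_zero).const_mul (A + B)
    rw [mul_zero] at h
    refine h.congr fun T => ?_
    rw [one_mul, add_zero, ← mul_div_assoc]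
  obtain ⟨T₀, hT₀⟩ := eventually_atTop.1 ((hlim.eventually (eventually_le_nhds
    (show (0 : ℝ) < d / 2 by linarith))).and (eventually_ge_atTop 2))
  refine ⟨d / 2 / n, T₀, by positivity, fun T hT => ?_⟩
  obtain ⟨hsmall, hT2⟩ := hT₀ T hT
  rw [div_le_iff₀ (by linarith)] at hsmall
  have h1 := hl1 T hT2
  have h2 := hl2 T hT2
  have h3 := norm_zeroSum_diff_le h he h' he' hn1.le T
  have e : ((T / π : ℝ) : ℂ) * (lamF a n - lamF b n) =
      (zeroSum E n T + ((T / π : ℝ) : ℂ) * lamF a n) -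
        (zeroSum E' n T + ((T / π : ℝ) : ℂ) * lamF b n) -
        (zeroSum E n T - zeroSum E' n T) := by ring
  have h4 := congrArg (‖·‖) e
  simp only [norm_mul, Complex.norm_real, Real.norm_eq_abs,
    abs_of_pos (div_pos (show 0 < T by linarith) Real.pi_pos)] at h4
  have h5 := (norm_sub_le _ _).trans (add_le_add ((norm_sub_le _ _).trans (add_le_add h1 h2)) h3)
  rw [← h4, show T / π * ‖lamF a n - lamF b n‖ = T * d by rw [hd]; ring, ← add_mul] at h5
  rw [div_mul_eq_mul_div, div_le_iff₀ (by linarith)]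
  linarith

/-- **A multiplicity is `O (log T)`.** -/
theorem exists_order_le (h : HasFunctionalEquation a m E lam mu Q omega) (he : HasEulerProduct a) :
    ∃ C : ℝ, 0 ≤ C ∧ ∀ T : ℝ, 3 ≤ T → ∀ ρ : ℂ, 0 ≤ ρ.re → ρ.re ≤ 1 → |ρ.im| ≤ T →
      (analyticOrderNatAt E ρ : ℝ) ≤ C * Real.log T := by
  classical
  have hord := order_fe h he
  obtain ⟨W, hW, hwin⟩ := exists_window h he (α := 0) (β := 1) le_rfl le_rfl
  refine ⟨W + boxCount E 0 1 3, by positivity, fun T hT ρ h1 h2 h3 => ?_⟩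
  have hl : 1 ≤ Real.log T := by
    rw [Real.le_log_iff_exp_le (by linarith)]
    linarith [Real.exp_one_lt_d9]
  by_cases h0 : E ρ = 0
  swap
  · rw [order_eq_zero h h0, Nat.cast_zero]
    positivity
  have hmem : ∀ S : ℝ, |ρ.im| ≤ S →
      ρ ∈ (finite_boxZeros h.differentiable hord 0 1 S).toFinset := fun S hS =>
    (Set.Finite.mem_toFinset _).2 ⟨h0, h1, h2, hS⟩
  rcases le_or_gt |ρ.im| 3 with h4 | h4
  · have hs : (analyticOrderNatAt E ρ : ℝ) ≤ boxCount E 0 1 3 := by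
      rw [boxCount_eq_sum h.differentiable hord]
      exact Nat.cast_le.2 (Finset.single_le_sum (f := fun z => analyticOrderNatAt E z)
        (fun z _ => Nat.zero_le _) (hmem 3 h4))
    nlinarith [Nat.cast_nonneg (α := ℝ) (boxCount E 0 1 3)]
  · have hs : analyticOrderNatAt E ρ + boxCount E 0 1 (|ρ.im| - 1) ≤
        boxCount E 0 1 (|ρ.im| + 1) := by
      rw [boxCount_eq_sum h.differentiable hord, boxCount_eq_sum h.differentiable hord,
        ← Finset.sum_insert (a := ρ) (f := fun z => analyticOrderNatAt E z) (fun hm => by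
          have := ((Set.Finite.mem_toFinset _).1 hm).2.2.2
          linarith)]
      refine Finset.sum_le_sum_of_subset (Finset.insert_subset (hmem _ (by linarith)) ?_)
      exact Set.Finite.toFinset_subset_toFinset.2
        fun z ⟨a, b, c, d⟩ => ⟨a, b, c, d.trans (by linarith)⟩
    have hs' : (analyticOrderNatAt E ρ : ℝ) + boxCount E 0 1 (|ρ.im| - 1) ≤
        boxCount E 0 1 (|ρ.im| + 1) := by exact_mod_cast hs
    have hw := hwin |ρ.im| h4.le
    have := mul_le_mul_of_nonneg_left (Real.log_le_log (by linarith) h3) hW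
    nlinarith [Nat.cast_nonneg (α := ℝ) (boxCount E 0 1 3)]

/-- **They differ in at least `c T / log T` points.** -/
theorem exists_diff_points (h : HasFunctionalEquation a m E lam mu Q omega) (he : HasEulerProduct a)
    (h' : HasFunctionalEquation b m' E' lam' mu' Q' omega') (he' : HasEulerProduct b)
    (hne : ∃ n, n ≠ 0 ∧ a n ≠ b n) : ∃ c T₀ : ℝ, 0 < c ∧ ∀ T : ℝ, T₀ ≤ T →
      {ρ : ℂ | 0 ≤ ρ.re ∧ ρ.re ≤ 1 ∧ |ρ.im| ≤ T ∧ ρ ≠ 1 ∧
        analyticOrderNatAt E ρ ≠ analyticOrderNatAt E' ρ}.Finite ∧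
      c * T / Real.log T ≤ {ρ : ℂ | 0 ≤ ρ.re ∧ ρ.re ≤ 1 ∧ |ρ.im| ≤ T ∧ ρ ≠ 1 ∧
        analyticOrderNatAt E ρ ≠ analyticOrderNatAt E' ρ}.ncard := by
  classical
  obtain ⟨c, T₀, hc, hlow⟩ := exists_diff_lower h he h' he' hne
  obtain ⟨A, hA, hmA⟩ := exists_order_le h he
  obtain ⟨B, hB, hmB⟩ := exists_order_le h' he'
  refine ⟨c / (A + B + 1), max T₀ 3, by positivity, fun T hT => ?_⟩
  have hT3 : 3 ≤ T := (le_max_right _ _).trans hT
  obtain ⟨U, hU⟩ : ∃ U, U =
      ((finite_stripZeros h he T).union (finite_stripZeros h' he' T)).toFinset := ⟨_, rfl⟩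
  have e : {ρ : ℂ | 0 ≤ ρ.re ∧ ρ.re ≤ 1 ∧ |ρ.im| ≤ T ∧ ρ ≠ 1 ∧
      analyticOrderNatAt E ρ ≠ analyticOrderNatAt E' ρ} =
      ↑(U.filter fun ρ => analyticOrderNatAt E ρ ≠ analyticOrderNatAt E' ρ) := by
    ext ρ
    simp only [Set.mem_ofPred_eq, Finset.coe_filter, hU, Set.Finite.mem_toFinset, Set.mem_union]
    constructor
    · rintro ⟨h1, h2, h3, h4, h5⟩
      refine ⟨?_, h5⟩
      by_cases h0 : E ρ = 0
      · exact Or.inl ⟨h0, h1, h2, h3, h4⟩
      · refine Or.inr ⟨by_contra fun h0' => h5 ?_, h1, h2, h3, h4⟩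
        rw [order_eq_zero h h0, order_eq_zero h' h0']
    · rintro ⟨hm, h5⟩
      rcases hm with hz | hz <;> exact ⟨hz.2.1, hz.2.2.1, hz.2.2.2.1, hz.2.2.2.2, h5⟩
  rw [e, Set.ncard_coe_finset]
  refine ⟨Finset.finite_toSet _, ?_⟩
  have hl : 0 < Real.log T := Real.log_pos (by linarith)
  have h1 := hlow T ((le_max_left _ _).trans hT)
  rw [zeroDiff_eq_sum h he h' he', ← hU] at h1
  rw [div_le_iff₀ hl, div_mul_eq_mul_div, div_le_iff₀ (by positivity)]
  refine h1.trans ?_
  rw [← Finset.sum_filter_of_ne (p := fun ρ => analyticOrderNatAt E ρ ≠ analyticOrderNatAt E' ρ)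
    fun ρ _ hne' heq => hne' (by rw [heq, sub_self, abs_zero])]
  refine (Finset.sum_le_card_nsmul _ _ ((A + B + 1) * Real.log T) fun ρ hρ => ?_).trans
    (le_of_eq (by rw [nsmul_eq_mul]; ring))
  obtain ⟨hm, -⟩ := Finset.mem_filter.1 hρ
  rw [hU, Set.Finite.mem_toFinset] at hm
  have hs : 0 ≤ ρ.re ∧ ρ.re ≤ 1 ∧ |ρ.im| ≤ T := by
    rcases hm with hz | hz <;> exact ⟨hz.2.1, hz.2.2.1, hz.2.2.2.1⟩
  have h2 := hmA T hT3 ρ hs.1 hs.2.1 hs.2.2
  have h3 := hmB T hT3 ρ hs.1 hs.2.1 hs.2.2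
  rw [abs_le]
  have e1 : (A + B + 1) * Real.log T = A * Real.log T + B * Real.log T + Real.log T := by ring
  have := mul_nonneg hA hl.le
  have := mul_nonneg hB hl.le
  constructor <;>
    linarith [Nat.cast_nonneg (α := ℝ) (analyticOrderNatAt E ρ),
      Nat.cast_nonneg (α := ℝ) (analyticOrderNatAt E' ρ)]

/-- **A difference `o (T)` forces equal coefficients.** -/
theorem eq_of_diff_small (h : HasFunctionalEquation a m E lam mu Q omega) (he : HasEulerProduct a)
    (h' : HasFunctionalEquation b m' E' lam' mu' Q' omega') (he' : HasEulerProduct b)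
    (hD : Tendsto (fun T => zeroDiff E E' T / T) atTop (𝓝 0)) : ∀ n, n ≠ 0 → a n = b n := by
  by_contra hall
  push Not at hall
  obtain ⟨c, T₀, hc, hlow⟩ := exists_diff_lower h he h' he' hall
  obtain ⟨T, hsmall, hT, hT0⟩ := ((hD.eventually (eventually_lt_nhds hc)).and
    ((eventually_ge_atTop T₀).and (eventually_gt_atTop 0))).exists
  rw [div_lt_iff₀ hT0] at hsmall
  exact absurd (hlow T hT) (not_le.2 hsmall)

/-- Equal multiplicities outside a finite set make the difference bounded. -/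
theorem exists_zeroDiff_le (h : HasFunctionalEquation a m E lam mu Q omega) (he : HasEulerProduct a)
    (h' : HasFunctionalEquation b m' E' lam' mu' Q' omega') (he' : HasEulerProduct b) {S : Set ℂ}
    (hS : S.Finite) (heq : ∀ ρ ∉ S, 0 ≤ ρ.re → ρ.re ≤ 1 → ρ ≠ 1 →
      analyticOrderNatAt E ρ = analyticOrderNatAt E' ρ) :
    ∃ M : ℝ, 0 ≤ M ∧ ∀ T, 0 ≤ zeroDiff E E' T ∧ zeroDiff E E' T ≤ M := by
  classical
  refine ⟨∑ ρ ∈ hS.toFinset, |(analyticOrderNatAt E ρ : ℝ) - analyticOrderNatAt E' ρ|,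
    Finset.sum_nonneg fun _ _ => abs_nonneg _, fun T => ?_⟩
  rw [zeroDiff_eq_sum h he h' he']
  refine ⟨Finset.sum_nonneg fun _ _ => abs_nonneg _, ?_⟩
  rw [← Finset.sum_filter_of_ne (p := fun ρ => ρ ∈ S) fun ρ hρ hne' => by_contra fun hn => hne' (by
    rw [Set.Finite.mem_toFinset] at hρ
    have hs : 0 ≤ ρ.re ∧ ρ.re ≤ 1 ∧ ρ ≠ 1 := by
      rcases hρ with hz | hz <;> exact ⟨hz.2.1, hz.2.2.1, hz.2.2.2.2⟩
    rw [heq ρ hn hs.1 hs.2.1 hs.2.2, sub_self, abs_zero])]
  exact Finset.sum_le_sum_of_subset_of_nonneg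
    (fun ρ hρ => hS.mem_toFinset.2 (Finset.mem_filter.1 hρ).2) fun _ _ _ => abs_nonneg _

/-- **The zeros recover `Λ_F`.** -/
theorem tendsto_recover (h : HasFunctionalEquation a m E lam mu Q omega) (he : HasEulerProduct a)
    {x : ℝ} (hx : 1 < x) : Tendsto (fun T : ℝ => -((π / T : ℝ) : ℂ) * zeroSum E x T) atTop
      (𝓝 (coefAt (lamF a) x)) := by
  obtain ⟨C, hC⟩ := exists_landau h he hx
  rw [tendsto_iff_norm_sub_tendsto_zero]
  have hlim := (Real.tendsto_pow_log_div_mul_add_atTop 1 0 2 one_ne_zero).const_mul (π * C)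
  rw [mul_zero] at hlim
  refine squeeze_zero' (Eventually.of_forall fun T => norm_nonneg _) ?_ hlim
  filter_upwards [eventually_ge_atTop 2] with T hT
  obtain ⟨w, hw⟩ : ∃ w : ℂ, w = coefAt (lamF a) x := ⟨_, rfl⟩
  have h1 := hC T hT
  rw [← hw] at h1 ⊢
  have hT0 : (T : ℂ) ≠ 0 := ofReal_ne_zero.2 (by linarith)
  have hπ : (π : ℂ) ≠ 0 := ofReal_ne_zero.2 Real.pi_ne_zero
  rw [show -((π / T : ℝ) : ℂ) * zeroSum E x T - w =
      -((π / T : ℝ) : ℂ) * (zeroSum E x T + ((T / π : ℝ) : ℂ) * w) by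
    push_cast
    field_simp
    ring, norm_mul, norm_neg, Complex.norm_real, Real.norm_of_nonneg (div_nonneg Real.pi_pos.le
      (by linarith)), one_mul, add_zero]
  refine (mul_le_mul_of_nonneg_left h1 (div_nonneg Real.pi_pos.le (by linarith))).trans
    (le_of_eq ?_)
  ring

/-- **The sum is `o (N T)` in positive degree.** -/
theorem tendsto_normalised (h : HasFunctionalEquation a m E lam mu Q omega) (he : HasEulerProduct a)
    (hd : 0 < degree lam) {x : ℝ} (hx : 1 < x) :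
    Tendsto (fun T : ℝ => zeroSum E x T / (stripCount E T : ℂ)) atTop (𝓝 0) := by
  have hrec := tendsto_recover h he hx
  obtain ⟨C, hC⟩ := exists_stripCount h he
  have hbound : ∀ᶠ T in atTop, degree lam / (2 * π) * (T * Real.log T) ≤ stripCount E T := by
    have hlog : Tendsto (fun T : ℝ =>
        degree lam / (2 * π) * Real.log T + FA.SelbergStructure.rateD lam Q / π) atTop atTop :=
      (Real.tendsto_log_atTop.const_mul_atTop (by positivity)).atTop_add tendsto_const_nhds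
    have hsmall : Tendsto (fun T : ℝ => C * (Real.log T / T)) atTop (𝓝 0) := by
      simpa using (Real.isLittleO_log_id_atTop.tendsto_div_nhds_zero.const_mul C)
    filter_upwards [hlog.eventually_ge_atTop 1, hsmall.eventually (eventually_le_nhds one_pos),
      eventually_ge_atTop 2] with T h1 h2 hT
    have h3 := (abs_le.1 (hC T hT)).1
    have h4 := mul_le_mul_of_nonneg_left (h2.trans h1) (show 0 ≤ T by linarith)
    rw [show T * (C * (Real.log T / T)) = C * Real.log T by field_simp] at h4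
    rw [mainTerm] at h3
    rw [show (degree lam * (T * Real.log T) + FA.SelbergStructure.rateD lam Q * T) / π =
      degree lam / (2 * π) * (T * Real.log T) + T * (degree lam / (2 * π) * Real.log T +
        FA.SelbergStructure.rateD lam Q / π) by field_simp; ring] at h3
    linarith
  rw [tendsto_zero_iff_norm_tendsto_zero]
  have hlim : Tendsto (fun T : ℝ => (‖coefAt (lamF a) x‖ + 1) * (2 / degree lam) *
      (Real.log T)⁻¹) atTop (𝓝 0) := by
    simpa using Real.tendsto_log_atTop.inv_tendsto_atTop.const_mul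
      ((‖coefAt (lamF a) x‖ + 1) * (2 / degree lam))
  refine squeeze_zero' (Eventually.of_forall fun T => norm_nonneg _) ?_ hlim
  filter_upwards [hbound, hrec.norm.eventually (eventually_le_nhds (lt_add_one _)),
    eventually_ge_atTop 2] with T hN hS hT
  have hl : 0 < Real.log T := Real.log_pos (by linarith)
  have hden : 0 < degree lam / (2 * π) * (T * Real.log T) := by positivity
  rw [norm_mul, norm_neg, Complex.norm_real, Real.norm_of_nonneg (div_nonneg Real.pi_pos.le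
    (by linarith))] at hS
  rw [norm_div, Complex.norm_natCast]
  refine (div_le_div_of_nonneg_left (norm_nonneg _) hden hN).trans ?_
  rw [div_le_iff₀ hden, show (‖coefAt (lamF a) x‖ + 1) * (2 / degree lam) * (Real.log T)⁻¹ *
    (degree lam / (2 * π) * (T * Real.log T)) = (‖coefAt (lamF a) x‖ + 1) * (T / π) by
      field_simp]
  calc ‖zeroSum E x T‖ = π / T * ‖zeroSum E x T‖ * (T / π) := by field_simp
    _ ≤ _ := mul_le_mul_of_nonneg_right hS (by positivity)

end FA.SelbergLandau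

end
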