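import Fermat.Agent.SelbergZeroCount.Ratio
import Fermat.Agent.ZeroOrdinates.Oscillatory
import Mathlib.Analysis.SpecialFunctions.Gamma.Digamma
import Mathlib.NumberTheory.Harmonic.Bounds

/-!
# A frequency against a slowly varying function

If `f` changes by `O (h / |v|)` over a step `h` then `∫ e^(iLv) f v` over `[-T, T]` is `O (log T)`
for `L ≠ 0`; the logarithmic derivative of the quotient of the Gamma factors on a line is such an
`f`.
-/

set_option autoImplicit false

noncomputable section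

open Complex Filter Topology Set MeasureTheory
open scoped Real ComplexConjugate
open FA.DegreeGap (pt pt_re)
open FA.DegreeOne (reflRatio arg_left arg_right)
open FA.ZeroOrdinates (osc norm_osc continuous_osc norm_integral_osc_mul_le norm_digamma_sub_le)
open FA.SelbergZeroCount (IsGoodLine ratioLog ratioLog_conj)

namespace FA.SelbergLandau

theorem conj_osc (L v : ℝ) : conj (osc L v) = osc (-L) v := by
  rw [osc, osc, ← Complex.exp_conj, map_mul, conj_ofReal, conj_I]
  congr 1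
  push_cast
  ring

theorem osc_neg (L v : ℝ) : osc L (-v) = osc (-L) v := by
  simp [osc]

/-- The increments are `O (h / v)` for large `v`. -/
def SlowTail (f : ℝ → ℂ) : Prop :=
  ∃ A V : ℝ, 0 ≤ A ∧ ∀ v h : ℝ, V ≤ v → 0 ≤ h → ‖f (v + h) - f v‖ ≤ A * h / v

theorem SlowTail.conj_fn {f : ℝ → ℂ} (hf : SlowTail f) : SlowTail fun v => conj (f v) := by
  obtain ⟨A, V, hA, h⟩ := hf
  exact ⟨A, V, hA, fun v x hv hx => by simp only [← map_sub, Complex.norm_conj]; exact h v x hv hx⟩

theorem SlowTail.exists_bound {f : ℝ → ℂ} (hc : Continuous f) (hf : SlowTail f) :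
    ∃ B : ℝ, 0 ≤ B ∧ ∀ v : ℝ, 0 ≤ v → ‖f v‖ ≤ B * (1 + Real.log (v + 1)) := by
  obtain ⟨A, V, hA, hlip⟩ := hf
  obtain ⟨W, hW⟩ : ∃ W, W = max V 1 := ⟨_, rfl⟩
  obtain ⟨M, hM⟩ := isCompact_Icc.exists_bound_of_continuousOn (s := Icc 0 (W + 1)) hc.continuousOn
  have hW1 : 1 ≤ W := hW ▸ le_max_right _ _
  have hM0 : 0 ≤ M := (norm_nonneg _).trans (hM 0 ⟨le_rfl, by linarith⟩)
  refine ⟨M + A, by linarith, fun v hv => ?_⟩
  have hl : 0 ≤ Real.log (v + 1) := Real.log_nonneg (by linarith)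
  rcases le_or_gt v (W + 1) with hle | hlt
  · refine (hM v ⟨hv, hle⟩).trans ?_
    nlinarith
  obtain ⟨n, hn⟩ : ∃ n, n = ⌊v - W⌋₊ := ⟨_, rfl⟩
  have hn1 : (n : ℝ) ≤ v - W := hn ▸ Nat.floor_le (by linarith)
  have hn2 : v - W < n + 1 := hn ▸ Nat.lt_floor_add_one _
  have hstep : ∀ i : ℕ, ‖f (v - n + i)‖ ≤ M + A * (harmonic i : ℝ) := fun i => by
    induction i with
    | zero =>
      simpa using hM _ ⟨by linarith, by linarith⟩
    | succ i ih =>
      have h1 := hlip (v - n + i) 1 (by linarith [le_max_left V 1, Nat.cast_nonneg (α := ℝ) i])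
        zero_le_one
      rw [show v - n + i + 1 = v - n + ((i + 1 : ℕ) : ℝ) by push_cast; ring] at h1
      have h2 : A * 1 / (v - n + i) ≤ A * ((i + 1 : ℝ))⁻¹ := by
        rw [mul_one, div_eq_mul_inv]
        exact mul_le_mul_of_nonneg_left (inv_anti₀ (by positivity) (by linarith)) hA
      have h3 := norm_le_norm_add_norm_sub' (f (v - n + ((i + 1 : ℕ) : ℝ))) (f (v - n + i))
      rw [harmonic_succ]
      push_cast at h1 h3 ⊢
      linarith
  have h := hstep n
  rw [sub_add_cancel] at h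
  refine h.trans ?_
  have h4 : (harmonic n : ℝ) ≤ 1 + Real.log (v + 1) := (harmonic_le_one_add_log n).trans (by
    rcases Nat.eq_zero_or_pos n with e | e
    · rw [e, Nat.cast_zero, Real.log_zero]
      linarith
    · exact add_le_add le_rfl (Real.log_le_log (Nat.cast_pos.2 e) (by linarith)))
  nlinarith [mul_le_mul_of_nonneg_left h4 hA, mul_nonneg hM0 hl]

theorem exists_osc_slow_pos {L : ℝ} (hL : 0 < L) {f : ℝ → ℂ} (hc : Continuous f)
    (hf : SlowTail f) : ∃ C : ℝ, ∀ T : ℝ, 2 ≤ T →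
      ‖∫ v in (0 : ℝ)..T, osc L v * f v‖ ≤ C * (Real.log T + 1) := by
  obtain ⟨B, hB, hbound⟩ := hf.exists_bound hc
  obtain ⟨A, V, hA, hlip⟩ := hf
  obtain ⟨h, hh⟩ : ∃ h, h = π / L := ⟨_, rfl⟩
  have hh0 : 0 < h := hh ▸ div_pos Real.pi_pos hL
  obtain ⟨W, hW⟩ : ∃ W, W = max V 2 := ⟨_, rfl⟩
  have hW2 : 2 ≤ W := hW ▸ le_max_right _ _
  obtain ⟨N, hN⟩ : ∃ N, N = B * (1 + Real.log (W + h + 1)) := ⟨_, rfl⟩
  have hN0 : 0 ≤ N := hN ▸ mul_nonneg hB (by linarith [Real.log_nonneg (show 1 ≤ W + h + 1 by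
    linarith)])
  obtain ⟨A', hA'⟩ : ∃ A', A' = A + 2 * N * W / h := ⟨_, rfl⟩
  have hA'0 : 0 ≤ A' := by rw [hA']; positivity
  have hlip' : ∀ v, 2 ≤ v → ‖f (v + h) - f v‖ ≤ A' * h / v := fun v hv => by
    rcases le_or_gt W v with hWv | hWv
    · refine (hlip v h (le_trans (hW ▸ le_max_left _ _) hWv) hh0.le).trans ?_
      rw [hA']
      gcongr
      exact le_add_of_nonneg_right (by positivity)
    · refine (norm_sub_le _ _).trans ?_
      have e : ∀ u, 0 ≤ u → u ≤ W + h → ‖f u‖ ≤ N := fun u h1 h2 => (hbound u h1).trans (by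
        rw [hN]; gcongr)
      refine (add_le_add (e _ (by linarith) (by linarith))
        (e _ (by linarith) (by linarith))).trans ?_
      rw [hA', le_div_iff₀ (by linarith)]
      rw [show (A + 2 * N * W / h) * h = A * h + 2 * N * W by field_simp]
      nlinarith [mul_nonneg hA hh0.le]
  refine ⟨2 * (B * (1 + Real.log 3)) + h * (B * (2 + Real.log (h + 2)) + A'), fun T hT => ?_⟩
  have hi : ∀ a b : ℝ, IntervalIntegrable (fun v => osc L v * f v) volume a b := fun a b =>
    ((continuous_osc L).mul hc).intervalIntegrable a b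
  rw [← intervalIntegral.integral_add_adjacent_intervals (hi 0 2) (hi 2 T)]
  have h1 : ‖∫ v in (0 : ℝ)..2, osc L v * f v‖ ≤ 2 * (B * (1 + Real.log 3)) := by
    refine (intervalIntegral.norm_integral_le_of_norm_le_const
      (C := B * (1 + Real.log 3)) fun v hv => ?_).trans (le_of_eq (by norm_num; ring))
    rw [uIoc_of_le (by norm_num)] at hv
    rw [norm_mul, norm_osc, one_mul]
    refine (hbound v hv.1.le).trans ?_
    gcongr <;> linarith [hv.1, hv.2]
  have hl : 0 ≤ Real.log T := Real.log_nonneg (by linarith)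
  have hlh : 0 ≤ Real.log (h + 2) := Real.log_nonneg (by linarith)
  have h2 := norm_integral_osc_mul_le (C := A') (M := B * (1 + (Real.log T + Real.log (h + 2))))
    hL le_rfl hT hc (fun v hv => (hbound v (by linarith [hv.1])).trans (by
      gcongr
      rw [← Real.log_mul (by linarith) (by linarith)]
      refine Real.log_le_log (by linarith [hv.1]) ?_
      rw [← hh] at hv
      nlinarith [hv.2])) fun v hv => hh ▸ hlip' v hv
  rw [← hh] at h2
  refine (norm_add_le _ _).trans ((add_le_add h1 h2).trans ?_)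
  have h3 : Real.log (T / 2) ≤ Real.log T := Real.log_le_log (by linarith) (by linarith)
  have h6 : B * (1 + (Real.log T + Real.log (h + 2))) + A' * Real.log (T / 2) ≤
      (B * (2 + Real.log (h + 2)) + A') * (Real.log T + 1) := by
    nlinarith [mul_nonneg hB hlh, mul_nonneg (mul_nonneg hB hlh) hl,
      mul_le_mul_of_nonneg_left h3 hA'0, mul_nonneg hB hl]
  rw [add_mul, mul_assoc h]
  refine add_le_add (le_mul_of_one_le_right ?_ (by linarith))
    (mul_le_mul_of_nonneg_left h6 hh0.le)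
  have : (0 : ℝ) ≤ Real.log 3 := Real.log_nonneg (by norm_num)
  positivity

theorem exists_osc_slow_half {L : ℝ} (hL : L ≠ 0) {f : ℝ → ℂ} (hc : Continuous f)
    (hf : SlowTail f) : ∃ C : ℝ, ∀ T : ℝ, 2 ≤ T →
      ‖∫ v in (0 : ℝ)..T, osc L v * f v‖ ≤ C * (Real.log T + 1) := by
  rcases lt_or_gt_of_ne hL with hneg | hpos
  · obtain ⟨C, hC⟩ := exists_osc_slow_pos (L := -L) (by linarith) (continuous_conj.comp hc)
      hf.conj_fn
    refine ⟨C, fun T hT => le_trans (le_of_eq ?_) (hC T hT)⟩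
    rw [← Complex.norm_conj, ← intervalIntegral.intervalIntegral_conj]
    congr 1
    refine intervalIntegral.integral_congr fun v _ => ?_
    simp only [map_mul, conj_osc, Function.comp_apply]
  · exact exists_osc_slow_pos hpos hc hf

/-- **A frequency against a slowly varying function on `[-T, T]`.** -/
theorem exists_osc_slow {L : ℝ} (hL : L ≠ 0) {f : ℝ → ℂ} (hc : Continuous f) (hf : SlowTail f)
    (hf' : SlowTail fun v => f (-v)) : ∃ C : ℝ, ∀ T : ℝ, 2 ≤ T →
      ‖∫ v in (-T)..T, osc L v * f v‖ ≤ C * (Real.log T + 1) := by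
  obtain ⟨C, hC⟩ := exists_osc_slow_half hL hc hf
  obtain ⟨C', hC'⟩ := exists_osc_slow_half (neg_ne_zero.2 hL) (hc.comp continuous_neg) hf'
  refine ⟨C + C', fun T hT => ?_⟩
  have hi : ∀ a b : ℝ, IntervalIntegrable (fun v => osc L v * f v) volume a b := fun a b =>
    ((continuous_osc L).mul hc).intervalIntegrable a b
  rw [← intervalIntegral.integral_add_adjacent_intervals (hi (-T) 0) (hi 0 T)]
  have h : ‖∫ v in (-T)..0, osc L v * f v‖ ≤ C' * (Real.log T + 1) := by
    refine le_trans (le_of_eq ?_) (hC' T hT)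
    rw [show (0 : ℝ) = -0 from neg_zero.symm, ← intervalIntegral.integral_comp_neg, neg_zero]
    simp only [Function.comp_apply, osc_neg]
  refine (norm_add_le _ _).trans ((add_le_add h (hC T hT)).trans (le_of_eq ?_))
  ring

theorem digamma_eq_shift {w : ℂ} (hw : w.im ≠ 0) (n : ℕ) :
    digamma w = digamma (w + n) - ∑ i ∈ Finset.range n, (w + i)⁻¹ := by
  induction n with
  | zero => simp
  | succ n ih =>
    rw [ih, Finset.sum_range_succ, Nat.cast_succ, ← add_assoc,
      Complex.digamma_apply_add_one (w + n) fun k e => hw (by simpa using congrArg Complex.im e)]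
    ring

theorem norm_digamma_step_le {w z : ℂ} {n : ℕ} {Y : ℝ} (hw : 0 < w.re + n) (hz : 0 < z.re + n)
    (hY : 1 ≤ Y) (hwY : Y ≤ |w.im|) (hzY : Y ≤ |z.im|) :
    ‖digamma z - digamma w‖ ≤ (5 + n) * ‖z - w‖ / Y := by
  have him : ∀ u : ℂ, Y ≤ |u.im| → u.im ≠ 0 := fun u hu e => by
    rw [e, abs_zero] at hu
    linarith
  rw [digamma_eq_shift (him z hzY) n, digamma_eq_shift (him w hwY) n, sub_sub_sub_comm,
    ← Finset.sum_sub_distrib]
  refine (norm_sub_le _ _).trans ?_
  have h1 := norm_digamma_sub_le (z := z + n) (w := w + n) (Y := Y) (by simpa using hz)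
    (by simpa using hw) hY (by simpa using hzY) (by simpa using hwY)
  rw [add_sub_add_right_eq_sub] at h1
  rw [add_mul, add_div]
  refine add_le_add ((le_of_eq (by rw [digamma_def, logDeriv_apply, logDeriv_apply])).trans h1)
    ((norm_sum_le_of_le (f := fun i : ℕ => (z + i)⁻¹ - (w + i)⁻¹)
      (n := fun _ => ‖z - w‖ / Y) (Finset.range n) fun i _ => ?_).trans (le_of_eq ?_))
  · have hz0 : z + i ≠ 0 := fun e => him z hzY (by simpa using congrArg Complex.im e)
    have hw0 : w + i ≠ 0 := fun e => him w hwY (by simpa using congrArg Complex.im e)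
    have a1 : Y ≤ ‖z + i‖ := hzY.trans (by simpa using Complex.abs_im_le_norm (z + i))
    have a2 : Y ≤ ‖w + i‖ := hwY.trans (by simpa using Complex.abs_im_le_norm (w + i))
    rw [inv_sub_inv hz0 hw0, norm_div, norm_mul, add_sub_add_right_eq_sub, norm_sub_rev]
    exact div_le_div_of_nonneg_left (norm_nonneg _) (by linarith)
      ((le_mul_of_one_le_right (by linarith) hY).trans
        (mul_le_mul a1 a2 (by linarith) (norm_nonneg _)))
  · rw [Finset.sum_const, Finset.card_range, nsmul_eq_mul]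
    ring

variable {r : ℕ} {lam : Fin r → ℝ} {mu : Fin r → ℂ} {Q σ : ℝ}

theorem ratioLog_line (hlam : ∀ j, 0 < lam j) (hmu : ∀ j, 0 ≤ (mu j).re) (hQ : 0 < Q) (hσ : σ < 1)
    (hgood : IsGoodLine lam mu σ) (v : ℝ) :
    ratioLog lam mu Q (pt σ v) = -2 * Complex.log Q - ∑ j, (lam j : ℂ) *
      (conj (digamma ((lam j : ℂ) * (1 - conj (pt σ v)) + mu j)) +
        digamma ((lam j : ℂ) * pt σ v + mu j)) := by
  obtain ⟨s, hs⟩ : ∃ s, s = pt σ v := ⟨_, rfl⟩
  rw [← hs]
  have hsre : s.re < 1 := by rw [hs, pt_re]; exact hσ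
  have hQ0 : (Q : ℂ) ≠ 0 := ofReal_ne_zero.2 hQ.ne'
  have hw1 : ∀ j (n : ℕ), (lam j : ℂ) * (1 - conj s) + mu j ≠ -(n : ℂ) := fun j n e => by
    have h := congrArg Complex.re e
    simp only [add_re, re_ofReal_mul, sub_re, one_re, Complex.conj_re, Complex.neg_re,
      Complex.natCast_re] at h
    have := mul_pos (hlam j) (show 0 < 1 - s.re by linarith)
    linarith [hmu j, Nat.cast_nonneg (α := ℝ) n]
  have hw2 : ∀ j (n : ℕ), (lam j : ℂ) * s + mu j ≠ -(n : ℂ) := fun j n e => hgood j n (by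
    have := congrArg Complex.re e
    simpa [hs, pt] using this)
  have hG1 : ∀ j, HasDerivAt (fun z => conj (Complex.Gamma ((lam j : ℂ) * (1 - conj z) + mu j)))
      (conj (-(lam j : ℂ) * deriv Complex.Gamma ((lam j : ℂ) * (1 - conj s) + mu j))) s :=
    fun j => by
    have h1 : HasDerivAt (fun w => Complex.Gamma ((lam j : ℂ) * (1 - w) + mu j))
        (deriv Complex.Gamma ((lam j : ℂ) * (1 - conj s) + mu j) * ((lam j : ℂ) * -1)) (conj s) :=
      (Complex.differentiableAt_Gamma _ (hw1 j)).hasDerivAt.comp (conj s)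
        ((((hasDerivAt_id' (conj s)).const_sub 1).const_mul _).add_const _)
    have h2 := h1.conj_conj
    rw [Complex.conj_conj] at h2
    refine h2.congr_deriv ?_
    congr 1
    ring
  have hG2 : ∀ j, HasDerivAt (fun z => (Complex.Gamma ((lam j : ℂ) * z + mu j))⁻¹)
      (-(deriv Complex.Gamma ((lam j : ℂ) * s + mu j) * (lam j : ℂ)) /
        Complex.Gamma ((lam j : ℂ) * s + mu j) ^ 2) s := fun j => by
    have h1 : HasDerivAt (fun z => Complex.Gamma ((lam j : ℂ) * z + mu j))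
        (deriv Complex.Gamma ((lam j : ℂ) * s + mu j) * (lam j : ℂ)) s := by
      refine ((Complex.differentiableAt_Gamma _ (hw2 j)).hasDerivAt.comp s
        (((hasDerivAt_id' s).const_mul _).add_const _)).congr_deriv ?_
      ring
    exact h1.fun_inv (Complex.Gamma_ne_zero (hw2 j))
  have hn1 : ∀ j, conj (Complex.Gamma ((lam j : ℂ) * (1 - conj s) + mu j)) ≠ 0 := fun j =>
    (map_ne_zero _).2 (Complex.Gamma_ne_zero (hw1 j))
  have hn2 : ∀ j, (Complex.Gamma ((lam j : ℂ) * s + mu j))⁻¹ ≠ 0 := fun j =>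
    inv_ne_zero (Complex.Gamma_ne_zero (hw2 j))
  have hQd : HasDerivAt (fun z : ℂ => (Q : ℂ) ^ (1 - 2 * z))
      ((Q : ℂ) ^ (1 - 2 * s) * Complex.log Q * -(2 * 1)) s :=
    (((hasDerivAt_id' s).const_mul 2).const_sub 1).const_cpow (Or.inl hQ0)
  show deriv (reflRatio lam mu Q) s / reflRatio lam mu Q s = _
  rw [← logDeriv_apply]
  unfold FA.DegreeOne.reflRatio
  rw [logDeriv_mul (f := fun z : ℂ => (Q : ℂ) ^ (1 - 2 * z))
      (g := fun z : ℂ => ∏ j, conj (Complex.Gamma ((lam j : ℂ) * (1 - conj z) + mu j)) *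
        (Complex.Gamma ((lam j : ℂ) * z + mu j))⁻¹) s (cpow_ne_zero_iff.2 (Or.inl hQ0))
      (Finset.prod_ne_zero_iff.2 fun j _ => mul_ne_zero (hn1 j) (hn2 j)) hQd.differentiableAt
      (DifferentiableAt.fun_finsetProd fun j _ =>
        (hG1 j).differentiableAt.mul (hG2 j).differentiableAt),
    logDeriv_apply, hQd.deriv,
    logDeriv_prod (f := fun j z => conj (Complex.Gamma ((lam j : ℂ) * (1 - conj z) + mu j)) *
      (Complex.Gamma ((lam j : ℂ) * z + mu j))⁻¹) (fun j _ => mul_ne_zero (hn1 j) (hn2 j))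
      (fun j _ => (hG1 j).differentiableAt.mul (hG2 j).differentiableAt),
    sub_eq_add_neg (-2 * Complex.log (Q : ℂ)), ← Finset.sum_neg_distrib]
  congr 1
  · have := cpow_ne_zero_iff (y := 1 - 2 * s).2 (Or.inl hQ0)
    field_simp
  · refine Finset.sum_congr rfl fun j _ => ?_
    rw [logDeriv_mul s (hn1 j) (hn2 j) (hG1 j).differentiableAt (hG2 j).differentiableAt,
      logDeriv_apply, logDeriv_apply, (hG1 j).deriv, (hG2 j).deriv, digamma_def, logDeriv_apply,
      logDeriv_apply, map_mul, map_neg, conj_ofReal, map_div₀]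
    have := hn1 j
    have := Complex.Gamma_ne_zero (hw2 j)
    field_simp
    ring

theorem slowTail_ratioLog (hlam : ∀ j, 0 < lam j) (hmu : ∀ j, 0 ≤ (mu j).re) (hQ : 0 < Q)
    (hσ : σ < 1) (hgood : IsGoodLine lam mu σ) :
    SlowTail fun v => ratioLog lam mu Q (pt σ v) := by
  obtain ⟨n, hn⟩ : ∃ n : Fin r → ℕ,
      n = fun j => ⌈-(lam j * σ + (mu j).re)⌉₊ + 1 := ⟨_, rfl⟩
  obtain ⟨V, hV⟩ : ∃ V, V = 1 + ∑ j, (2 * |(mu j).im| + 2) / lam j := ⟨_, rfl⟩
  obtain ⟨A, hA⟩ : ∃ A, A = ∑ j, 4 * lam j * (5 + (n j : ℝ)) := ⟨_, rfl⟩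
  refine ⟨A, V, hA ▸ Finset.sum_nonneg fun j _ => by have := hlam j; positivity,
    fun v h hv hh => ?_⟩
  dsimp only
  rw [ratioLog_line hlam hmu hQ hσ hgood, ratioLog_line hlam hmu hQ hσ hgood,
    sub_sub_sub_cancel_left,
    ← Finset.sum_sub_distrib, hA, Finset.sum_mul, Finset.sum_div]
  refine norm_sum_le_of_le _ fun j _ => ?_
  have hl := hlam j
  have hpos : ∀ i : Fin r, 0 ≤ (2 * |(mu i).im| + 2) / lam i := fun i =>
    div_nonneg (by positivity) (hlam i).le
  have hv1 : (2 * |(mu j).im| + 2) / lam j ≤ v := by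
    have := Finset.single_le_sum (f := fun i => (2 * |(mu i).im| + 2) / lam i)
      (fun i _ => hpos i) (Finset.mem_univ j)
    linarith
  rw [div_le_iff₀ hl] at hv1
  have hv0 : 0 < v := by
    have := Finset.sum_nonneg fun i (_ : i ∈ Finset.univ) => hpos i
    linarith
  obtain ⟨Y, hY⟩ : ∃ Y, Y = lam j * v / 2 := ⟨_, rfl⟩
  have hY1 : 1 ≤ Y := by rw [hY]; linarith [abs_nonneg (mu j).im]
  have him : ∀ u, v ≤ u → Y ≤ |lam j * u + (mu j).im| := fun u hu => by
    have := mul_le_mul_of_nonneg_left hu hl.le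
    refine le_trans ?_ (le_abs_self _)
    linarith [neg_abs_le (mu j).im]
  have hnn : -(lam j * σ + (mu j).re) < n j := by
    rw [hn]
    push_cast
    linarith [Nat.le_ceil (-(lam j * σ + (mu j).re))]
  have key : ∀ c : ℝ, 0 < c + n j →
      ‖digamma ((c : ℂ) + ((lam j * v + (mu j).im : ℝ) : ℂ) * I) -
        digamma ((c : ℂ) + ((lam j * (v + h) + (mu j).im : ℝ) : ℂ) * I)‖ ≤
      (5 + (n j : ℝ)) * (2 * h / v) := fun c hc => by
    refine (norm_digamma_step_le (n := n j) (Y := Y) (by simp; linarith) (by simp; linarith) hY1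
      (by simpa using him (v + h) (by linarith)) (by simpa using him v le_rfl)).trans (le_of_eq ?_)
    rw [show (c : ℂ) + ((lam j * v + (mu j).im : ℝ) : ℂ) * I -
      ((c : ℂ) + ((lam j * (v + h) + (mu j).im : ℝ) : ℂ) * I) = ((-(lam j * h) : ℝ) : ℂ) * I by
        push_cast; ring, norm_mul, Complex.norm_real, Complex.norm_I, Real.norm_eq_abs, abs_neg,
      abs_of_nonneg (mul_nonneg hl.le hh), hY]
    field_simp
  have k1 := key (lam j * σ + (mu j).re) (by linarith)
  have k2 := key (lam j * (1 - σ) + (mu j).re) (by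
    have := mul_pos hl (show 0 < 1 - σ by linarith)
    linarith [hmu j, Nat.cast_nonneg (α := ℝ) (n j)])
  rw [← mul_sub, norm_mul, Complex.norm_real, Real.norm_of_nonneg hl.le, arg_left, arg_left,
    arg_right, arg_right, add_sub_add_comm, ← map_sub]
  refine (mul_le_mul_of_nonneg_left ((norm_add_le _ _).trans (add_le_add
    ((Complex.norm_conj _).trans_le k2) k1)) hl.le).trans (le_of_eq ?_)
  ring

/-- **Both halves of the line.** -/
theorem slowTail_ratioLog_neg (hlam : ∀ j, 0 < lam j) (hmu : ∀ j, 0 ≤ (mu j).re) (hQ : 0 < Q)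
    (hσ : σ < 1) (hgood : IsGoodLine lam mu σ) :
    SlowTail fun v => ratioLog lam mu Q (pt σ (-v)) := by
  have h := (slowTail_ratioLog (mu := fun j => conj (mu j)) hlam (fun j => by simpa using hmu j)
    hQ hσ fun j k => by simpa using hgood j k).conj_fn
  have e : ∀ v, conj (ratioLog lam (fun j => conj (mu j)) Q (pt σ v)) =
      ratioLog lam mu Q (pt σ (-v)) := fun v => by
    rw [show pt σ v = conj (pt σ (-v)) by apply Complex.ext <;> simp [pt], ratioLog_conj hQ,
      Complex.conj_conj]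
  simpa only [e] using h

theorem slowTail_inv {σ : ℝ} (hσ : σ ≠ 1) :
    SlowTail (fun v => (pt σ v - 1)⁻¹) ∧ SlowTail fun v => (pt σ (-v) - 1)⁻¹ := by
  have key : ∀ ε : ℝ, |ε| = 1 → SlowTail fun v => (pt σ (ε * v) - 1)⁻¹ := fun ε hε => by
    refine ⟨1, 1, zero_le_one, fun v h hv hh => ?_⟩
    dsimp only
    have hne : ∀ u, pt σ u - 1 ≠ 0 := fun u e => hσ (by
      simpa [pt, sub_eq_zero] using congrArg Complex.re e)
    have hn : ∀ u, v ≤ u → v ≤ ‖pt σ (ε * u) - 1‖ := fun u hu => by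
      have h1 := Complex.abs_im_le_norm (pt σ (ε * u) - 1)
      rw [show (pt σ (ε * u) - 1).im = ε * u by simp [pt], abs_mul, hε, one_mul] at h1
      exact le_trans (hu.trans (le_abs_self u)) h1
    rw [inv_sub_inv (hne _) (hne _), norm_div, norm_mul, one_mul]
    have e : ‖pt σ (ε * v) - 1 - (pt σ (ε * (v + h)) - 1)‖ = h := by
      rw [show pt σ (ε * v) - 1 - (pt σ (ε * (v + h)) - 1) = ((-(ε * h) : ℝ) : ℂ) * I by
        simp [pt]; ring, norm_mul, Complex.norm_real, Complex.norm_I, Real.norm_eq_abs, abs_neg,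
        abs_mul, hε, abs_of_nonneg hh, one_mul, mul_one]
    rw [e]
    exact div_le_div_of_nonneg_left hh (by linarith)
      ((le_mul_of_one_le_right (by linarith) hv).trans
        (mul_le_mul (hn _ (by linarith)) (hn v le_rfl) (by linarith) (norm_nonneg _)))
  refine ⟨?_, ?_⟩
  · simpa using key 1 (by norm_num)
  · simpa using key (-1) (by norm_num)

end FA.SelbergLandau

end
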