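import Fermat.Agent.SelbergLandau.Coefficients
import Fermat.Agent.SelbergLandau.Slow
import Fermat.Agent.DirichletLandau.Lines

/-!
# The vertical sides
-/

set_option autoImplicit false

noncomputable section

open Complex Filter Topology Set MeasureTheory
open scoped Real ComplexConjugate
open FA.DegreeGap (HasFunctionalEquation pt pt_re continuous_pt one_sub_conj_pt)
open FA.DegreeOne (reflRatio)
open FA.SelbergClass (HasEulerProduct)
open FA.DirichletLandau (coefAt exists_integral_series exists_integral_series_conj)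
open FA.ZeroOrdinates (osc norm_osc continuous_osc cpow_line term_line)
open FA.SelbergMultiplicity (differentiableAt_reflRatio)
open FA.SelbergZeroCount

namespace FA.SelbergLandau

variable {a : ℕ → ℂ} {m : ℕ} {E : ℂ → ℂ} {r : ℕ} {lam : Fin r → ℝ} {mu : Fin r → ℂ} {Q : ℝ}
  {omega : ℂ}

/-- The half plane on which `-L'/L` is the series of `Λ_F`. -/
def GoodRight (a : ℕ → ℂ) (β : ℝ) : Prop :=
  1 < β ∧ ∀ v : ℝ, LSeriesSummable (lamF a) (pt β v) ∧ LSeries a (pt β v) ≠ 0 ∧
    deriv (LSeries a) (pt β v) / LSeries a (pt β v) = -LSeries (lamF a) (pt β v)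

theorem lSeries_lamF_line (β v : ℝ) : LSeries (lamF a) (pt β v) =
    ∑' n, LSeries.term (lamF a) (β : ℂ) n * osc (-Real.log n) v :=
  tsum_congr fun n => term_line _ β v n

theorem GoodRight.summable {β : ℝ} (hg : GoodRight a β) :
    Summable fun n => ‖LSeries.term (lamF a) (β : ℂ) n‖ :=
  ((hg.2 0).1.of_re_le_re (s' := (β : ℂ)) (by simp [pt])).norm

theorem GoodRight.continuous_series {β : ℝ} (hg : GoodRight a β) :
    Continuous fun v : ℝ => LSeries (lamF a) (pt β v) := by
  simp only [lSeries_lamF_line]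
  exact continuous_tsum (fun n => continuous_const.mul (continuous_osc _)) hg.summable
    fun n v => by rw [norm_mul, norm_osc, mul_one]

theorem logDeriv_right (h : HasFunctionalEquation a m E lam mu Q omega) {β : ℝ}
    (hg : GoodRight a β) (v : ℝ) : deriv E (pt β v) / E (pt β v) =
      m * (pt β v - 1)⁻¹ + -LSeries (lamF a) (pt β v) := by
  obtain ⟨-, hne, he⟩ := hg.2 v
  have hre : 1 < (pt β v).re := by rw [pt_re]; exact hg.1
  rw [logDeriv_pow_mul (differentiableAt_lSeries h hre) hne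
    (fun e => by rw [e, one_re] at hre; exact lt_irrefl _ hre), he]
  filter_upwards [(isOpen_lt continuous_const continuous_re).mem_nhds hre] with z hz
  exact h.eq_series z hz

theorem logDeriv_left (h : HasFunctionalEquation a m E lam mu Q omega) {β : ℝ}
    (hg : GoodRight a β) (hgood : IsGoodLine lam mu (1 - β)) (v : ℝ) :
    deriv E (pt (1 - β) v) / E (pt (1 - β) v) = m * (pt (1 - β) v - 1)⁻¹ +
      (ratioLog lam mu Q (pt (1 - β) v) + conj (LSeries (lamF a) (pt β v))) := by
  obtain ⟨s, hs⟩ : ∃ s, s = pt (1 - β) v := ⟨_, rfl⟩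
  rw [← hs]
  have hw : 1 - conj s = pt β v := by rw [hs, one_sub_conj_pt, sub_sub_cancel]
  have hsre : s.re < 0 := by rw [hs, pt_re]; linarith [hg.1]
  obtain ⟨-, hne, he⟩ := hg.2 v
  have hR : reflRatio lam mu Q s ≠ 0 := hs ▸
    reflRatio_line_ne_zero h.lam_pos h.mu_re h.Q_pos (by linarith [hg.1]) hgood v
  have hdR := (differentiableAt_reflRatio h.lam_pos h.mu_re h.Q_pos
    (show s.re < 1 by linarith)).hasDerivAt
  have hL : HasDerivAt (LSeries a) (deriv (LSeries a) (1 - conj s)) (1 - conj s) :=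
    (differentiableAt_lSeries h (by rw [hw, pt_re]; exact hg.1)).hasDerivAt
  have hc : HasDerivAt (fun z => conj (LSeries a (1 - conj z)))
      (conj (deriv (LSeries a) (1 - conj s) * -1)) s := by
    have h1 : HasDerivAt (fun w => LSeries a (1 - w)) (deriv (LSeries a) (1 - conj s) * -1)
        (conj s) := hL.comp (conj s) ((hasDerivAt_id' (conj s)).const_sub 1)
    have h2 := h1.conj_conj
    rw [Complex.conj_conj] at h2
    exact h2
  have hω : omega ≠ 0 := norm_ne_zero_iff.1 (by rw [h.norm_omega]; exact one_ne_zero)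
  obtain ⟨g, hg'⟩ : ∃ g : ℂ → ℂ,
      g = fun z => omega * reflRatio lam mu Q z * conj (LSeries a (1 - conj z)) := ⟨_, rfl⟩
  have hgd : HasDerivAt g (omega * deriv (reflRatio lam mu Q) s * conj (LSeries a (1 - conj s)) +
      omega * reflRatio lam mu Q s * conj (deriv (LSeries a) (1 - conj s) * -1)) s :=
    hg' ▸ (hdR.const_mul omega).fun_mul hc
  have hg0 : g s ≠ 0 := by
    simp only [hg']
    exact mul_ne_zero (mul_ne_zero hω hR) ((map_ne_zero _).2 (by rwa [hw]))
  rw [logDeriv_pow_mul hgd.differentiableAt hg0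
    (fun e => by rw [e, one_re] at hsre; linarith)]
  · congr 1
    have hcne : conj (LSeries a (pt β v)) ≠ 0 := (map_ne_zero _).2 hne
    rw [hgd.deriv, ratioLog, show LSeries (lamF a) (pt β v) =
      -(deriv (LSeries a) (pt β v) / LSeries a (pt β v)) by rw [he, neg_neg]]
    simp only [hg', hw, map_mul, map_neg, map_one, map_div₀]
    field_simp
  · filter_upwards [(isOpen_lt continuous_re continuous_const).mem_nhds hsre] with z hz
    rw [eq_left h hz, hg']

theorem continuous_inv_line {σ : ℝ} (hσ : σ ≠ 1) : Continuous fun v => (pt σ v - 1)⁻¹ :=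
  ((continuous_pt σ).sub continuous_const).inv₀ fun u e =>
    hσ (by simpa [pt, sub_eq_zero] using congrArg Complex.re e)

/-- **The right side.** -/
theorem exists_right_side (h : HasFunctionalEquation a m E lam mu Q omega) {β : ℝ}
    (hg : GoodRight a β) {x : ℝ} (hx : 1 < x) : ∃ C : ℝ, ∀ T : ℝ, 2 ≤ T →
      ‖(∫ v in (-T)..T, (x : ℂ) ^ pt β v * (deriv E (pt β v) / E (pt β v))) +
        coefAt (lamF a) x * ((2 * T : ℝ) : ℂ)‖ ≤ C * (Real.log T + 1) := by
  have hx0 : 0 < x := by linarith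
  obtain ⟨C₁, hC₁, hser⟩ := exists_integral_series hx (lamF a) β hg.summable
  obtain ⟨f, hf⟩ : ∃ f : ℝ → ℂ, f = fun v => (pt β v - 1)⁻¹ := ⟨_, rfl⟩
  have hfc : Continuous f := hf ▸ continuous_inv_line hg.1.ne'
  obtain ⟨C₂, hslow⟩ := exists_osc_slow (Real.log_pos hx).ne' hfc (hf ▸ (slowTail_inv hg.1.ne').1)
    (hf ▸ (slowTail_inv hg.1.ne').2)
  obtain ⟨c, hc⟩ : ∃ c : ℂ, c = (m : ℂ) * ((x ^ β : ℝ) : ℂ) := ⟨_, rfl⟩
  refine ⟨‖c‖ * C₂ + C₁, fun T hT => ?_⟩
  have he : ∀ v : ℝ, (x : ℂ) ^ pt β v * (deriv E (pt β v) / E (pt β v)) =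
      c * (osc (Real.log x) v * f v) - (x : ℂ) ^ pt β v *
        ∑' n, LSeries.term (lamF a) (β : ℂ) n * osc (-Real.log n) v := fun v => by
    rw [logDeriv_right h hg, ← lSeries_lamF_line, hc, hf,
      show (x : ℂ) ^ pt β v = ((x ^ β : ℝ) : ℂ) * osc (Real.log x) v from cpow_line hx0 β v]
    ring
  simp only [he]
  have hcp : Continuous fun v => (x : ℂ) ^ pt β v :=
    (continuous_pt β).const_cpow (Or.inl (ofReal_ne_zero.2 hx0.ne'))
  have hcS : Continuous fun v =>
      (x : ℂ) ^ pt β v * ∑' n, LSeries.term (lamF a) (β : ℂ) n * osc (-Real.log n) v := by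
    simp only [← lSeries_lamF_line]
    exact hcp.mul hg.continuous_series
  have hci : Continuous fun v => c * (osc (Real.log x) v * f v) :=
    continuous_const.mul ((continuous_osc _).mul hfc)
  rw [intervalIntegral.integral_sub (hci.intervalIntegrable _ _) (hcS.intervalIntegrable _ _),
    intervalIntegral.integral_const_mul, sub_add]
  refine (norm_sub_le _ _).trans ?_
  have h1 := hser (-T) T
  rw [show T - -T = 2 * T by ring] at h1
  rw [norm_mul]
  have h2 := mul_le_mul_of_nonneg_left (hslow T hT) (norm_nonneg c)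
  simp only [pt] at h1 ⊢
  nlinarith [Real.log_nonneg (show 1 ≤ T by linarith)]

/-- **The left side.** -/
theorem exists_left_side (h : HasFunctionalEquation a m E lam mu Q omega) {β : ℝ}
    (hg : GoodRight a β) (hgood : IsGoodLine lam mu (1 - β)) {x : ℝ} (hx : 1 < x) :
    ∃ C : ℝ, ∀ T : ℝ, 2 ≤ T →
      ‖∫ v in (-T)..T, (x : ℂ) ^ pt (1 - β) v * (deriv E (pt (1 - β) v) / E (pt (1 - β) v))‖ ≤
        C * (Real.log T + 1) := by
  have hx0 : 0 < x := by linarith
  have hlog := (Real.log_pos hx).ne'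
  obtain ⟨α, hα⟩ : ∃ α, α = 1 - β := ⟨_, rfl⟩
  rw [← hα] at hgood ⊢
  have hα1 : α < 1 := by linarith [hg.1]
  obtain ⟨C₁, hC₁, hser⟩ := exists_integral_series_conj hx (lamF a) β hg.summable α
  obtain ⟨f, hf⟩ : ∃ f : ℝ → ℂ, f = fun v => (pt α v - 1)⁻¹ := ⟨_, rfl⟩
  obtain ⟨g, hg'⟩ : ∃ g : ℝ → ℂ, g = fun v => ratioLog lam mu Q (pt α v) := ⟨_, rfl⟩
  have hfc : Continuous f := hf ▸ continuous_inv_line hα1.ne
  have hgc : Continuous g :=
    hg' ▸ continuous_ratioLog_line h.lam_pos h.mu_re h.Q_pos hα1 hgood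
  obtain ⟨C₂, hslow⟩ := exists_osc_slow hlog hfc (hf ▸ (slowTail_inv hα1.ne).1)
    (hf ▸ (slowTail_inv hα1.ne).2)
  obtain ⟨C₃, hslow'⟩ := exists_osc_slow hlog hgc
    (hg' ▸ slowTail_ratioLog h.lam_pos h.mu_re h.Q_pos hα1 hgood)
    (hg' ▸ slowTail_ratioLog_neg h.lam_pos h.mu_re h.Q_pos hα1 hgood)
  obtain ⟨c, hc⟩ : ∃ c : ℂ, c = (m : ℂ) * ((x ^ α : ℝ) : ℂ) := ⟨_, rfl⟩
  obtain ⟨d, hd⟩ : ∃ d : ℂ, d = ((x ^ α : ℝ) : ℂ) := ⟨_, rfl⟩
  refine ⟨‖c‖ * C₂ + ‖d‖ * C₃ + C₁, fun T hT => ?_⟩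
  have he : ∀ v : ℝ, (x : ℂ) ^ pt α v * (deriv E (pt α v) / E (pt α v)) =
      c * (osc (Real.log x) v * f v) + d * (osc (Real.log x) v * g v) + (x : ℂ) ^ pt α v *
        conj (∑' n, LSeries.term (lamF a) (β : ℂ) n * osc (-Real.log n) v) := fun v => by
    rw [hα, logDeriv_left h hg (hα ▸ hgood), ← lSeries_lamF_line, hc, hd, hf, hg', hα,
      show (x : ℂ) ^ pt (1 - β) v = ((x ^ (1 - β) : ℝ) : ℂ) * osc (Real.log x) v from
        cpow_line hx0 _ v]
    ring
  simp only [he]
  have hcp : Continuous fun v => (x : ℂ) ^ pt α v :=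
    (continuous_pt α).const_cpow (Or.inl (ofReal_ne_zero.2 hx0.ne'))
  have hcS : Continuous fun v => (x : ℂ) ^ pt α v *
      conj (∑' n, LSeries.term (lamF a) (β : ℂ) n * osc (-Real.log n) v) := by
    simp only [← lSeries_lamF_line]
    exact hcp.mul (continuous_conj.comp hg.continuous_series)
  have hci : Continuous fun v => c * (osc (Real.log x) v * f v) :=
    continuous_const.mul ((continuous_osc _).mul hfc)
  have hdi : Continuous fun v => d * (osc (Real.log x) v * g v) :=
    continuous_const.mul ((continuous_osc _).mul hgc)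
  rw [intervalIntegral.integral_add ((hci.fun_add hdi).intervalIntegrable _ _)
      (hcS.intervalIntegrable _ _),
    intervalIntegral.integral_add (hci.intervalIntegrable _ _) (hdi.intervalIntegrable _ _),
    intervalIntegral.integral_const_mul, intervalIntegral.integral_const_mul]
  refine norm_add₃_le.trans ?_
  rw [norm_mul, norm_mul]
  have h1 := hser (-T) T
  have h2 := mul_le_mul_of_nonneg_left (hslow T hT) (norm_nonneg c)
  have h3 := mul_le_mul_of_nonneg_left (hslow' T hT) (norm_nonneg d)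
  simp only [pt] at h1 ⊢
  nlinarith [Real.log_nonneg (show 1 ≤ T by linarith)]

end FA.SelbergLandau

end
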