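import Fermat.Agent.SelbergLandau.Box
import Fermat.Agent.SelbergLandau.Lines

/-!
# Landau's formula for the Selberg class

`∑_{|im ρ| ≤ T} x ^ ρ = -(T / π) Λ_F x + O (log² T)` for each `x > 1`.
-/

set_option autoImplicit false

noncomputable section

open Complex Filter Topology Set MeasureTheory
open scoped Real
open FA.DegreeGap (HasFunctionalEquation pt pt_re degree)
open FA.SelbergClass (HasEulerProduct)
open FA.DirichletLandau (coefAt)
open FA.ExplicitFormula (boxInt)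
open FA.SelbergZeroCount

namespace FA.SelbergLandau

variable {a : ℕ → ℂ} {m : ℕ} {E : ℂ → ℂ} {r : ℕ} {lam : Fin r → ℝ} {mu : Fin r → ℂ} {Q : ℝ}
  {omega : ℂ}

/-- `∑ x ^ ρ` over the zeros that `stripCount` counts. -/
def zeroSum (E : ℂ → ℂ) (x T : ℝ) : ℂ :=
  ∑ᶠ ρ ∈ stripZeros E T, (analyticOrderNatAt E ρ : ℂ) * (x : ℂ) ^ ρ

theorem zeroSum_eq_sum (h : HasFunctionalEquation a m E lam mu Q omega) (he : HasEulerProduct a)
    (x T : ℝ) : zeroSum E x T = ∑ ρ ∈ (finite_stripZeros h he T).toFinset,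
      (analyticOrderNatAt E ρ : ℂ) * (x : ℂ) ^ ρ :=
  finsum_mem_eq_finite_toFinset_sum _ _

theorem norm_term_le {x : ℝ} (hx : 1 ≤ x) {ρ : ℂ} {β : ℝ} (hρ : ρ.re ≤ β) (n : ℕ) :
    ‖(n : ℂ) * (x : ℂ) ^ ρ‖ ≤ x ^ β * n := by
  rw [norm_mul, Complex.norm_natCast, norm_cpow_eq_rpow_re_of_pos (by linarith), mul_comm]
  exact mul_le_mul_of_nonneg_right (Real.rpow_le_rpow_of_exponent_le hx hρ) (Nat.cast_nonneg n)

theorem norm_zeroSum_le (h : HasFunctionalEquation a m E lam mu Q omega) (he : HasEulerProduct a)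
    {x : ℝ} (hx : 1 ≤ x) (T : ℝ) : ‖zeroSum E x T‖ ≤ x * stripCount E T := by
  rw [zeroSum_eq_sum h he, stripCount_eq_sum h he, Nat.cast_sum, Finset.mul_sum]
  refine (norm_sum_le _ _).trans (Finset.sum_le_sum fun ρ hρ => ?_)
  obtain ⟨-, -, h1, -⟩ := (Set.Finite.mem_toFinset _).1 hρ
  exact (norm_term_le hx h1 _).trans_eq (by rw [Real.rpow_one])

theorem norm_zeroSum_sub_le (h : HasFunctionalEquation a m E lam mu Q omega)
    (he : HasEulerProduct a) {x S T : ℝ} (hx : 1 ≤ x) (hST : S ≤ T) :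
    ‖zeroSum E x T - zeroSum E x S‖ ≤ x * ((stripCount E T : ℝ) - stripCount E S) := by
  classical
  have hsub : (finite_stripZeros h he S).toFinset ⊆ (finite_stripZeros h he T).toFinset :=
    Set.Finite.toFinset_subset_toFinset.2
      fun ρ ⟨h0, h1, h2, h3, h4⟩ => ⟨h0, h1, h2, h3.trans hST, h4⟩
  rw [zeroSum_eq_sum h he, zeroSum_eq_sum h he, stripCount_eq_sum h he, stripCount_eq_sum h he,
    Nat.cast_sum, Nat.cast_sum, ← Finset.sum_sdiff hsub, add_sub_cancel_right,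
    ← Finset.sum_sdiff hsub, add_sub_cancel_right, Finset.mul_sum]
  refine (norm_sum_le _ _).trans (Finset.sum_le_sum fun ρ hρ => ?_)
  obtain ⟨-, -, h1, -⟩ := (Set.Finite.mem_toFinset _).1 (Finset.mem_sdiff.1 hρ).1
  exact (norm_term_le hx h1 _).trans_eq (by rw [Real.rpow_one])

theorem exists_box_sum (h : HasFunctionalEquation a m E lam mu Q omega) (he : HasEulerProduct a)
    {α β : ℝ} (hα : α ≤ 0) (hβ : 1 ≤ β) {x : ℝ} (hx : 1 ≤ x) : ∃ D : ℝ, ∀ T : ℝ,
      ‖boxSum E (fun s => (x : ℂ) ^ s) α β T - zeroSum E x T‖ ≤ D := by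
  classical
  have hord := order_fe h he
  obtain ⟨D, hD⟩ := exists_box_compare h he hα hβ hord
  refine ⟨x ^ β * D, fun T => ?_⟩
  have hsub : (finite_stripZeros h he T).toFinset ⊆
      (finite_boxZeros h.differentiable hord α β T).toFinset :=
    Set.Finite.toFinset_subset_toFinset.2 fun ρ ⟨h0, h1, h2, h3, _⟩ =>
      ⟨h0, by linarith, by linarith, h3⟩
  have hc : ((∑ ρ ∈ (finite_boxZeros h.differentiable hord α β T).toFinset \
      (finite_stripZeros h he T).toFinset, analyticOrderNatAt E ρ : ℕ) : ℝ) ≤ D := by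
    have h1 := (hD T).2
    rw [boxCount_eq_sum h.differentiable hord, stripCount_eq_sum h he,
      ← Finset.sum_sdiff hsub] at h1
    exact_mod_cast (by omega : _ ≤ D)
  rw [boxSum_eq_sum h.differentiable hord, zeroSum_eq_sum h he, ← Finset.sum_sdiff hsub,
    add_sub_cancel_right]
  refine le_trans ?_ (mul_le_mul_of_nonneg_left hc (Real.rpow_nonneg (by linarith) β))
  rw [Nat.cast_sum, Finset.mul_sum]
  refine (norm_sum_le _ _).trans (Finset.sum_le_sum fun ρ hρ => ?_)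
  obtain ⟨-, -, h1, -⟩ := (Set.Finite.mem_toFinset _).1 (Finset.mem_sdiff.1 hρ).1
  exact norm_term_le hx h1 _

/-- A pair of vertical sides. -/
theorem exists_sides (h : HasFunctionalEquation a m E lam mu Q omega) (he : HasEulerProduct a) :
    ∃ β : ℝ, 2 ≤ β ∧ GoodRight a β ∧ IsGoodLine lam mu (1 - β) ∧
      ∀ t : ℝ, 1 / 2 ≤ (LSeries a (pt β t)).re := by
  obtain ⟨σ₁, hσ₁, hser⟩ := exists_lSeries_lamF h he
  obtain ⟨σ₂, hσ₂, hlow⟩ := exists_right_lower h he.map_one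
  obtain ⟨α, hα, hgood⟩ := exists_goodLine h.lam_pos mu (1 - max σ₁ σ₂)
  have h1 := le_max_left σ₁ σ₂
  have h2 := le_max_right σ₁ σ₂
  refine ⟨1 - α, by linarith, ⟨by linarith, fun v => hser _ (by rw [pt_re]; linarith)⟩,
    by rwa [sub_sub_cancel], fun t => hlow _ (by rw [pt_re]; linarith)⟩

theorem coefAt_eq_zero_of_ne {f : ℕ → ℂ} {x : ℝ} (h : ∀ n : ℕ, (n : ℝ) ≠ x) : coefAt f x = 0 :=
  FA.DirichletLandau.coefAt_of_ne f h

/-- The formula at a height away from the ordinates. -/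
theorem exists_landau_clean (h : HasFunctionalEquation a m E lam mu Q omega)
    (he : HasEulerProduct a) {x : ℝ} (hx : 1 < x) :
    ∃ α β C : ℝ, α ≤ 0 ∧ 1 ≤ β ∧ 0 ≤ C ∧ ∀ T δ : ℝ, 3 ≤ T → 0 < δ → δ ≤ 1 →
      (∀ ρ, E ρ = 0 → α ≤ ρ.re → ρ.re ≤ β → δ ≤ |(|ρ.im| - T)|) →
      ‖zeroSum E x T + ((T / π : ℝ) : ℂ) * coefAt (lamF a) x‖ ≤
        C * (Real.log T + 1 + Real.log (T + 3) / δ) := by
  have hx0 : 0 < x := by linarith
  obtain ⟨β, hβ, hg, hgood, hlow⟩ := exists_sides h he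
  obtain ⟨α, hα⟩ : ∃ α, α = 1 - β := ⟨_, rfl⟩
  obtain ⟨A, hright⟩ := exists_right_side h hg hx
  obtain ⟨B, hleft⟩ := exists_left_side h hg hgood hx
  obtain ⟨K, hK, hedge⟩ := exists_logDeriv_edge h (show α < 0 by linarith) hβ hlow
  obtain ⟨D, hD⟩ := exists_box_sum h he (show α ≤ 0 by linarith) (show 1 ≤ β by linarith) hx.le
  obtain ⟨F, hF⟩ : ∃ F, F = (β - α) * (x ^ β * K) := ⟨_, rfl⟩
  have hF0 : 0 ≤ F := hF ▸ mul_nonneg (by linarith) (mul_nonneg (Real.rpow_nonneg hx0.le _) hK)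
  refine ⟨α - 2, 2 * β - α + 2, |A| + |B| + 2 * F + |D|, by linarith, by linarith, by positivity,
    fun T δ hT hδ hδ1 hgap => ?_⟩
  have hT0 : 0 ≤ T := by linarith
  have hint : ∀ ρ, E ρ = 0 → α ≤ ρ.re → ρ.re ≤ β → |ρ.im| ≤ T →
      α < ρ.re ∧ ρ.re < β ∧ |ρ.im| < T := fun ρ h0 h1 h2 h3 => by
    refine ⟨lt_of_le_of_ne h1 fun e => ?_, lt_of_le_of_ne h2 fun e => ?_,
      lt_of_le_of_ne h3 fun e => ?_⟩
    · obtain ⟨j, n, hjn⟩ := exists_pole_of_zero h he (s := ρ) (by linarith) h0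
      refine hgood j n ?_
      have := congrArg Complex.re hjn
      simpa [← hα, e] using this
    · have hre : 1 < ρ.re := by linarith
      rw [h.eq_series ρ hre] at h0
      refine mul_ne_zero (pow_ne_zero _ (sub_ne_zero.2 fun e1 => ?_))
        (lSeries_ne_zero he hre (h.summable ρ hre)) h0
      rw [e1, one_re] at hre
      exact lt_irrefl _ hre
    · have := hgap ρ h0 (by linarith) (by linarith)
      rw [e, sub_self, abs_zero] at this
      linarith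
  have hbox := boxInt_weighted h.differentiable (order_fe h he) (Φ := fun s => (x : ℂ) ^ s)
    (fun s => ((hasDerivAt_id' s).const_cpow (Or.inl (ofReal_ne_zero.2 hx0.ne'))).differentiableAt)
    (show α ≤ β by linarith) hT0 hint
  have hhor : ∀ ε : ℝ, |ε| = T → ‖∫ u in α..β, (x : ℂ) ^ ((u : ℂ) + ε * I) *
      (deriv E ((u : ℂ) + ε * I) / E ((u : ℂ) + ε * I))‖ ≤ F * (Real.log (T + 3) / δ) :=
    fun ε hε => by
    refine (intervalIntegral.norm_integral_le_of_norm_le_const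
      (C := x ^ β * (K * Real.log (T + 3) / δ)) fun u hu => ?_).trans (le_of_eq ?_)
    · rw [uIoc_of_le (by linarith)] at hu
      rw [norm_mul, norm_cpow_eq_rpow_re_of_pos hx0]
      refine mul_le_mul (Real.rpow_le_rpow_of_exponent_le hx.le (by simpa using hu.2)) ?_
        (norm_nonneg _) (Real.rpow_nonneg hx0.le _)
      have := hedge ε δ hδ hδ1 (fun ρ h0 h1 h2 => hε ▸ hgap ρ h0 h1 h2) u ⟨hu.1.le, hu.2⟩
      rwa [hε] at this
    · rw [abs_of_nonneg (by linarith : (0 : ℝ) ≤ β - α), hF]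
      ring
  have hR := hright T (by linarith)
  have hL := hleft T (by linarith)
  have hBt := hhor (-T) (by rw [abs_neg, abs_of_nonneg hT0])
  have hTp := hhor T (abs_of_nonneg hT0)
  simp only [← hα, pt] at hL hR
  simp only [boxInt] at hbox
  generalize (∫ u in α..β, (x : ℂ) ^ ((u : ℂ) + ((-T : ℝ) : ℂ) * I) *
    (deriv E ((u : ℂ) + ((-T : ℝ) : ℂ) * I) / E ((u : ℂ) + ((-T : ℝ) : ℂ) * I))) = J₁ at hBt hbox
  generalize (∫ u in α..β, (x : ℂ) ^ ((u : ℂ) + (T : ℂ) * I) *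
    (deriv E ((u : ℂ) + (T : ℂ) * I) / E ((u : ℂ) + (T : ℂ) * I))) = J₂ at hTp hbox
  generalize (∫ v in (-T)..T, (x : ℂ) ^ ((β : ℂ) + v * I) *
    (deriv E ((β : ℂ) + v * I) / E ((β : ℂ) + v * I))) = R at hR hbox
  generalize (∫ v in (-T)..T, (x : ℂ) ^ ((α : ℂ) + v * I) *
    (deriv E ((α : ℂ) + v * I) / E ((α : ℂ) + v * I))) = L at hL hbox
  obtain ⟨c, hc⟩ : ∃ c, c = coefAt (lamF a) x := ⟨_, rfl⟩
  rw [← hc] at hR ⊢
  obtain ⟨S, hS⟩ : ∃ S, S = boxSum E (fun s => (x : ℂ) ^ s) α β T := ⟨_, rfl⟩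
  rw [← hS] at hbox
  have e : 2 * π * I * (S + ((T / π : ℝ) : ℂ) * c) =
      J₁ - J₂ + I * (R + c * ((2 * T : ℝ) : ℂ)) - I * L := by
    rw [mul_add, ← hbox, ofReal_div, ofReal_mul, ofReal_ofNat]
    have : (π : ℂ) ≠ 0 := ofReal_ne_zero.2 Real.pi_ne_zero
    field_simp
    ring
  have hn := congrArg (‖·‖) e
  simp only [norm_mul, RCLike.norm_ofNat, Complex.norm_real, Real.norm_of_nonneg Real.pi_pos.le,
    Complex.norm_I, mul_one] at hn
  have h1 := norm_sub_le (J₁ - J₂ + I * (R + c * ((2 * T : ℝ) : ℂ))) (I * L)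
  have h2 := norm_add_le (J₁ - J₂) (I * (R + c * ((2 * T : ℝ) : ℂ)))
  have h3 := norm_sub_le J₁ J₂
  rw [norm_mul I L, Complex.norm_I, one_mul] at h1
  rw [norm_mul I, Complex.norm_I, one_mul] at h2
  have hl : 1 ≤ Real.log T + 1 := by linarith [Real.log_nonneg (show 1 ≤ T by linarith)]
  have hq : 0 ≤ Real.log (T + 3) / δ :=
    div_nonneg (Real.log_nonneg (by linarith)) hδ.le
  have h4 := le_mul_of_one_le_left (norm_nonneg (S + ((T / π : ℝ) : ℂ) * c))
    (show 1 ≤ 2 * π by linarith [Real.pi_gt_three])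
  have h5 := norm_sub_le (S + ((T / π : ℝ) : ℂ) * c) (S - zeroSum E x T)
  rw [show S + ((T / π : ℝ) : ℂ) * c - (S - zeroSum E x T) =
    zeroSum E x T + ((T / π : ℝ) : ℂ) * c by ring] at h5
  have h6 := hS ▸ hD T
  have h7 : A * (Real.log T + 1) ≤ |A| * (Real.log T + 1) :=
    mul_le_mul_of_nonneg_right (le_abs_self A) (by linarith)
  have h8 : B * (Real.log T + 1) ≤ |B| * (Real.log T + 1) :=
    mul_le_mul_of_nonneg_right (le_abs_self B) (by linarith)
  have h9 : D ≤ |D| * (Real.log T + 1) :=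
    (le_abs_self D).trans (le_mul_of_one_le_right (abs_nonneg D) hl)
  have h10 := mul_nonneg (add_nonneg (add_nonneg (abs_nonneg A) (abs_nonneg B)) (abs_nonneg D)) hq
  have h11 := mul_nonneg hF0 (show 0 ≤ Real.log T + 1 by linarith)
  nlinarith

/-- **Landau's formula.** -/
theorem exists_landau (h : HasFunctionalEquation a m E lam mu Q omega) (he : HasEulerProduct a)
    {x : ℝ} (hx : 1 < x) : ∃ C : ℝ, ∀ T : ℝ, 2 ≤ T →
      ‖zeroSum E x T + ((T / π : ℝ) : ℂ) * coefAt (lamF a) x‖ ≤ C * Real.log T ^ 2 := by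
  obtain ⟨α, β, A, hα, hβ, hA, hclean⟩ := exists_landau_clean h he hx
  obtain ⟨H, hH, hheight⟩ := exists_spaced h he hα hβ
  obtain ⟨W, hW, hwin⟩ := exists_window h he hα hβ
  obtain ⟨D, hD⟩ := exists_box_compare h he hα hβ (order_fe h he)
  obtain ⟨c, hc⟩ : ∃ c, c = coefAt (lamF a) x := ⟨_, rfl⟩
  rw [← hc] at hclean ⊢
  obtain ⟨G, hG⟩ : ∃ G : ℝ, G = x * stripCount E 3 + ‖c‖ := ⟨_, rfl⟩
  refine ⟨A * (3 + 3 * H) + x * (W + D) + ‖c‖ + 4 * G, fun T hT => ?_⟩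
  have hG0 : 0 ≤ G := by rw [hG]; positivity
  obtain ⟨-, hone⟩ := log_succ_le hT
  obtain ⟨l, hl⟩ : ∃ l, l = Real.log T := ⟨_, rfl⟩
  rw [← hl] at hone ⊢
  have hsq : 1 ≤ 4 * l ^ 2 := by nlinarith
  have hrest : 0 ≤ A * (3 + 3 * H) + x * (W + D) + ‖c‖ := by positivity
  rcases le_or_gt 3 T with h3T | h3T
  swap
  · refine (norm_add_le _ _).trans ?_
    have b1 : ‖zeroSum E x T‖ ≤ x * stripCount E 3 := (norm_zeroSum_le h he hx.le T).trans
      (mul_le_mul_of_nonneg_left (Nat.cast_le.2 (stripCount_mono h he h3T.le)) (by linarith))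
    have b2 : ‖((T / π : ℝ) : ℂ) * c‖ ≤ ‖c‖ := by
      rw [norm_mul, Complex.norm_real, Real.norm_of_nonneg (by positivity)]
      exact mul_le_of_le_one_left (norm_nonneg _)
        ((div_le_one Real.pi_pos).2 (by linarith [Real.pi_gt_three]))
    nlinarith [mul_le_mul_of_nonneg_left hsq hG0, mul_nonneg hrest (sq_nonneg l)]
  obtain ⟨t, δ, ht1, ht2, hδ, hδ1, hinv, hgap⟩ := hheight T h3T
  have hl1 : 1 ≤ l := by
    rw [hl, Real.le_log_iff_exp_le (by linarith)]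
    linarith [Real.exp_one_lt_d9]
  have h1 := hclean t δ (by linarith) hδ hδ1 hgap
  obtain ⟨h4, -⟩ := log_succ_le hT
  rw [← hl] at h4 hinv
  have hlt : Real.log t + 1 ≤ 3 * l ^ 2 := by
    have : Real.log t ≤ 2 * l := by
      rw [hl, show (2 : ℝ) * Real.log T = Real.log (T ^ 2) by rw [Real.log_pow]; norm_num]
      exact Real.log_le_log (by linarith) (by nlinarith)
    nlinarith
  have h2 : Real.log (t + 3) / δ ≤ 3 * H * l ^ 2 := by
    rw [div_eq_mul_inv]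
    refine (mul_le_mul ((Real.log_le_log (by linarith) (show t + 3 ≤ T + 4 by linarith)).trans h4)
      hinv (inv_nonneg.2 hδ.le) (by linarith)).trans (le_of_eq ?_)
    ring
  have h3 : ‖zeroSum E x t + ((t / π : ℝ) : ℂ) * c‖ ≤ A * (3 + 3 * H) * l ^ 2 :=
    (h1.trans (mul_le_mul_of_nonneg_left (add_le_add hlt h2) hA)).trans (le_of_eq (by ring))
  have h5 : ‖zeroSum E x t - zeroSum E x T‖ ≤ x * (W + D) * l ^ 2 := by
    refine (norm_zeroSum_sub_le h he hx.le ht1).trans ?_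
    rw [mul_assoc]
    refine mul_le_mul_of_nonneg_left ?_ (by linarith)
    have b1 : (stripCount E t : ℝ) ≤ boxCount E α β (T + 1) :=
      (Nat.cast_le.2 (stripCount_mono h he ht2)).trans (Nat.cast_le.2 (hD (T + 1)).1)
    have b2 : (boxCount E α β (T - 1) : ℝ) ≤ stripCount E T + D :=
      (show (boxCount E α β (T - 1) : ℝ) ≤ stripCount E (T - 1) + D by
        exact_mod_cast (hD (T - 1)).2).trans
        (add_le_add (Nat.cast_le.2 (stripCount_mono h he (by linarith))) le_rfl)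
    have b3 := hwin T h3T
    rw [← hl] at b3
    have b4 : W * l ≤ W * l ^ 2 := mul_le_mul_of_nonneg_left (le_self_pow₀ hl1 two_ne_zero) hW
    have b5 : (D : ℝ) ≤ D * l ^ 2 := le_mul_of_one_le_right (Nat.cast_nonneg D) (one_le_pow₀ hl1)
    linarith
  have h6 : ‖((T / π : ℝ) : ℂ) * c - ((t / π : ℝ) : ℂ) * c‖ ≤ ‖c‖ * l ^ 2 := by
    rw [← sub_mul, ← ofReal_sub, norm_mul, Complex.norm_real, Real.norm_eq_abs, ← sub_div,
      abs_div, abs_of_pos Real.pi_pos, abs_of_nonpos (by linarith)]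
    have h7 : -(T - t) / π ≤ 1 := by
      rw [div_le_one Real.pi_pos]
      linarith [Real.pi_gt_three]
    refine (mul_le_mul_of_nonneg_right h7 (norm_nonneg _)).trans ?_
    rw [one_mul]
    exact le_mul_of_one_le_right (norm_nonneg _) (one_le_pow₀ hl1)
  rw [show zeroSum E x T + ((T / π : ℝ) : ℂ) * c = (zeroSum E x t + ((t / π : ℝ) : ℂ) * c) +
      -(zeroSum E x t - zeroSum E x T) + (((T / π : ℝ) : ℂ) * c - ((t / π : ℝ) : ℂ) * c) by ring]
  refine norm_add₃_le.trans ?_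
  rw [norm_neg]
  nlinarith [mul_nonneg hG0 (sq_nonneg l)]

end FA.SelbergLandau

end
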